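import Fermat.Agent.R.Flat.H54_Concrete
import Fermat.Agent.R.H86_Defs2

/-!
# Flat closure (cluster R, helper54): `Stmt_FlatSub`

Finite flat group schemes over `ℤ_(p)` (Hopf algebra form of the prelude) are closed under
Galois-stable subgroups.
-/

set_option autoImplicit false

namespace Fermat.Agent.R.H54

open GaloisRep

theorem isFlatGaloisModule_iff_absFlat (p : ℕ) (M : Type) [AddCommGroup M]
    (act : GalQ → M → M) :
    IsFlatGaloisModule p M act ↔ AbsFlat (ratLocalizedAt p) (AlgebraicClosure ℚ) GalQ M act :=
  Iff.rfl

/-- **Flatness passes to Galois-stable subgroups.** -/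
theorem stmt_FlatSub : Stmt_FlatSub := by
  intro p _ M M' _ _ act act' ι hι heq h
  haveI := ratLocalizedAt_isPrincipalIdealRing p
  exact (absFlat_sub (descentData_rat p) act act' ι hι heq h).absFlat

end Fermat.Agent.R.H54
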