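import Fermat.Agent.R.Flat.H54_Pi
import Fermat.Agent.R.Flat.H54_ClosureSub
import Fermat.Agent.R.H86_Defs3

/-!
# Flat closure (cluster R, helper54): `Stmt_FlatPi`
-/

set_option autoImplicit false

namespace Fermat.Agent.R.H54

/-- **Flatness passes to finite products.** -/
theorem stmt_FlatPi : Stmt_FlatPi := by
  intro p _ r M _ act h
  exact absFlat_pi r M act h

end Fermat.Agent.R.H54
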