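import Fermat.Agent.R.Flat.H54_Quot

/-!
# Flat closure (cluster R, helper54): flatness passes to Galois-equivariant quotients

For a `G`-stable subgroup `N` of the points of a separated finite flat cocommutative Hopf algebra
`H` over a principal ideal domain `R`, the points of the sub-Hopf algebra `invSub N` are the
quotient of the points of `H` by `N`.
-/

set_option autoImplicit false
set_option linter.unusedSectionVars false
set_option linter.style.haveILetI false

open scoped TensorProduct
open WithConv

namespace Fermat.Agent.R.H54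

section QuotMain

variable {R K G : Type} [CommRing R] [IsDomain R] [IsPrincipalIdealRing R] [Field K] [Algebra R K]
  [Group G] [MulSemiringAction G K]
variable {H : Type} [CommRing H] [HopfAlgebra R H] [Module.Finite R H] [Module.Flat R H]
  [Coalgebra.IsCocomm R H]

/-- The trace takes values in the invariants. -/
theorem trace_mem_inv (hD : DescentData R K G) {N : Set (Pts R H K)} (hN : IsGSubgroup hD N)
    (hNfin : N.Finite) (D : K) (Tr : H →ₗ[R] H)
    (hTr : ∀ (f : Pts R H K) (h : H), f (Tr h) = D * ∑ k ∈ hNfin.toFinset, (f * k) h) (h : H) :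
    Tr h ∈ invSub N := by
  intro f k₀ hk₀
  rw [hTr, hTr]
  congr 1
  refine Finset.sum_bij' (fun k _ => k₀ * k) (fun k _ => pinv k₀ * k) ?_ ?_ ?_ ?_ ?_
  · intro k hk
    rw [Set.Finite.mem_toFinset] at hk ⊢
    exact hN.mul_mem _ hk₀ _ hk
  · intro k hk
    rw [Set.Finite.mem_toFinset] at hk ⊢
    exact hN.mul_mem _ (hN.inv_mem _ hk₀) _ hk
  · intro k _
    show pinv k₀ * (k₀ * k) = k
    rw [← mul_assoc, pinv_mul, one_mul]
  · intro k _
    show k₀ * (pinv k₀ * k) = k
    rw [← mul_assoc, mul_pinv, one_mul]
  · intro k _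
    show (f * k₀ * k) h = (f * (k₀ * k)) h
    rw [mul_assoc]

/-- Two points agreeing on the invariants differ by an element of `N`. -/
theorem sep_cosets (hD : DescentData R K G) {N : Set (Pts R H K)} (hN : IsGSubgroup hD N)
    (hNfin : N.Finite) (f g : Pts R H K) (hfg : ∀ a ∈ invSub N, f a = g a) :
    ∃ k ∈ N, g = f * k := by
  classical
  obtain ⟨D, Tr, hD0, hTr⟩ := exists_trace hD hN hNfin
  set S := hNfin.toFinset with hS
  have h1 : ∀ h : H, ∑ k ∈ S, (f * k) h = ∑ k ∈ S, (g * k) h := by
    intro h
    have := hfg (Tr h) (trace_mem_inv hD hN hNfin D Tr hTr h)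
    rw [hTr, hTr] at this
    exact mul_left_cancel₀ hD0 this
  have hli := linearIndependent_algHom_toLinearMap R H K
  have hinj : ∀ u : Pts R H K, Function.Injective (fun k : Pts R H K => (u * k).ofConv) := by
    intro u k k' hkk
    have h2 : u * k = u * k' := WithConv.ext hkk
    calc k = pinv u * (u * k) := by rw [← mul_assoc, pinv_mul, one_mul]
      _ = pinv u * (u * k') := by rw [h2]
      _ = k' := by rw [← mul_assoc, pinv_mul, one_mul]
  have h2 : ∑ φ ∈ S.image (fun k => (f * k).ofConv), AlgHom.toLinearMap φ =
      ∑ φ ∈ S.image (fun k => (g * k).ofConv), AlgHom.toLinearMap φ := by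
    rw [Finset.sum_image (fun a _ b _ h => hinj f h),
      Finset.sum_image (fun a _ b _ h => hinj g h)]
    apply LinearMap.ext
    intro h
    rw [LinearMap.sum_apply, LinearMap.sum_apply]
    exact h1 h
  have h3 := finset_eq_of_sum_eq hli _ _ h2
  have h4 : g.ofConv ∈ S.image (fun k => (g * k).ofConv) := by
    refine Finset.mem_image.mpr ⟨1, ?_, by rw [mul_one]⟩
    rw [hS, Set.Finite.mem_toFinset]
    exact hN.one_mem
  rw [← h3] at h4
  obtain ⟨k, hk, hkg⟩ := Finset.mem_image.mp h4
  refine ⟨k, ?_, ?_⟩
  · rw [hS, Set.Finite.mem_toFinset] at hk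
    exact hk
  · exact (WithConv.ext hkg).symm

/-- Restriction of points along an algebra homomorphism. -/
def resPt {A : Type} [CommRing A] [HopfAlgebra R A] (j : A →ₐ[R] H) (f : Pts R H K) :
    Pts R A K :=
  toConv (f.ofConv.comp j)

lemma resPt_apply {A : Type} [CommRing A] [HopfAlgebra R A] (j : A →ₐ[R] H) (f : Pts R H K)
    (a : A) : resPt j f a = f (j a) := rfl

lemma resPt_mul {A : Type} [CommRing A] [HopfAlgebra R A] (j : A →ₐ[R] H)
    (hj : ∀ a, TensorProduct.map j.toLinearMap j.toLinearMap (Coalgebra.comul (R := R) a) =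
      Coalgebra.comul (R := R) (j a))
    (f g : Pts R H K) : resPt j (f * g) = resPt j f * resPt j g := by
  apply WithConv.ext
  apply AlgHom.ext
  intro a
  show (f * g) (j a) = (resPt j f * resPt j g) a
  have key : ∀ t : A ⊗[R] A,
      LinearMap.mul' R K (TensorProduct.map f.ofConv.toLinearMap g.ofConv.toLinearMap
        (TensorProduct.map j.toLinearMap j.toLinearMap t)) =
      LinearMap.mul' R K (TensorProduct.map (resPt j f).ofConv.toLinearMap
        (resPt j g).ofConv.toLinearMap t) := by
    intro t
    induction t using TensorProduct.induction_on with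
    | zero => simp
    | tmul x y => rfl
    | add x y hx hy => simp only [map_add, hx, hy]
  rw [convMul_apply', convMul_apply', ← hj, key]

/-- **Flatness passes to `G`-equivariant quotients** (abstract form). -/
theorem absFlat_quot (hD : DescentData R K G) {M M' : Type} [AddCommGroup M] [AddCommGroup M']
    (act : G → M → M) (act' : G → M' → M') (π : M →+ M') (hπ : Function.Surjective π)
    (heq : ∀ σ x, π (act σ x) = act' σ (π x)) (h : AbsFlat R K G M act) :
    AbsFlat R K G M' act' := by
  classical
  obtain ⟨H, _, _, hfin, hflat, hcoc, hsep, e, he_mul, he_gal⟩ := h.sep hD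
  have he1 : e 1 = 0 := map_one_eq_zero e he_mul
  have he_inv : ∀ f, e (pinv f) = - e f := by
    intro f
    have h1 := he_mul (pinv f) f
    rw [pinv_mul, he1] at h1
    exact eq_neg_of_add_eq_zero_left h1.symm
  have hgc1 : ∀ σ : G, gconj hD σ (1 : Pts R H K) = 1 := by
    intro σ
    apply WithConv.ext
    apply AlgHom.ext
    intro x
    show σ • ((1 : Pts R H K) x) = (1 : Pts R H K) x
    rw [AlgHom.convOne_apply]
    exact hD.fixR σ _
  have hact0 : ∀ σ, act σ 0 = 0 := by
    intro σ
    have := he_gal σ 1 (gconj hD σ 1) (fun _ => rfl)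
    rw [hgc1, he1] at this
    exact this.symm
  set E : Pts R H K → M' := fun f => π (e f) with hE
  have hE_one : E 1 = 0 := by simp only [hE, he1, map_zero]
  have hE_mul : ∀ f g, E (f * g) = E f + E g := by
    intro f g
    simp only [hE, he_mul, map_add]
  have hE_inv : ∀ f, E (pinv f) = - E f := by
    intro f
    simp only [hE, he_inv, map_neg]
  have hE_gal : ∀ σ f, E (gconj hD σ f) = act' σ (E f) := by
    intro σ f
    simp only [hE]
    rw [he_gal σ f (gconj hD σ f) (fun _ => rfl), heq]
  have hact'0 : ∀ σ, act' σ 0 = 0 := by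
    intro σ
    have := heq σ 0
    rw [hact0, map_zero] at this
    exact this.symm
  set N : Set (Pts R H K) := {f | E f = 0} with hNdef
  have hN : IsGSubgroup hD N := by
    refine ⟨hE_one, ?_, ?_, ?_⟩
    · intro f hf g hg
      have hf' : E f = 0 := hf
      have hg' : E g = 0 := hg
      show E (f * g) = 0
      rw [hE_mul, hf', hg', add_zero]
    · intro f hf
      have hf' : E f = 0 := hf
      show E (pinv f) = 0
      rw [hE_inv, hf', neg_zero]
    · intro σ f hf
      have hf' : E f = 0 := hf
      show E (gconj hD σ f) = 0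
      rw [hE_gal, hf', hact'0]
  obtain ⟨-, hNfin⟩ := closurePts_eq hD hN
  have d := subHopfData_inv hD hsep hN
  letI : HopfAlgebra R (invSub N) := d.hopfAlgebra
  haveI hfinA := finite_inv (R := R) (K := K) (H := H) N
  haveI hfreeA := free_inv (R := R) (K := K) (H := H) N
  have hcocA : Coalgebra.IsCocomm R (invSub N) := d.isCocomm
  -- restriction of points
  set res : Pts R H K → Pts R (invSub N) K := resPt (invSub N).val with hres
  have hres_mul : ∀ f g, res (f * g) = res f * res g := resPt_mul _ d.map_comulA
  have hres_surj : Function.Surjective res := by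
    have key := (pts_eq_of_separating hD (A := invSub N)
      (Set.range fun f : Pts R H K => (res f).ofConv) (by
        rintro σ _ ⟨f, rfl⟩
        exact ⟨gconj hD σ f, rfl⟩) (by
        intro a ha
        apply Subtype.ext
        apply hsep
        intro f
        exact ha _ ⟨f, rfl⟩)).1
    intro φ
    have : φ.ofConv ∈ Set.range fun f : Pts R H K => (res f).ofConv := by
      rw [key]
      exact Set.mem_univ _
    obtain ⟨f, hf⟩ := this
    exact ⟨f, WithConv.ext hf⟩
  have hres_eq : ∀ f g, res f = res g ↔ E f = E g := by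
    intro f g
    constructor
    · intro hfg
      obtain ⟨k, hk, rfl⟩ := sep_cosets hD hN hNfin f g (by
        intro a ha
        have := congrArg (fun φ : Pts R (invSub N) K => φ ⟨a, ha⟩) hfg
        exact this)
      have hk' : E k = 0 := hk
      rw [hE_mul, hk', add_zero]
    · intro hfg
      have hk : pinv f * g ∈ N := by
        show E (pinv f * g) = 0
        rw [hE_mul, hE_inv, hfg, neg_add_cancel]
      have hg : g = f * (pinv f * g) := by
        rw [← mul_assoc, mul_pinv, one_mul]
      rw [hg]
      apply WithConv.ext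
      apply AlgHom.ext
      intro a
      exact (a.2 f _ hk).symm
  set e' : Pts R (invSub N) K → M' := fun φ => E (Function.surjInv hres_surj φ) with he'
  have he'_res : ∀ f, e' (res f) = E f := fun f =>
    (hres_eq _ _).mp (Function.surjInv_eq hres_surj (res f))
  have he'_inj : Function.Injective e' := by
    intro φ ψ hφψ
    obtain ⟨f, rfl⟩ := hres_surj φ
    obtain ⟨g, rfl⟩ := hres_surj ψ
    rw [he'_res, he'_res] at hφψ
    exact (hres_eq _ _).mpr hφψ
  have he'_surj : Function.Surjective e' := by
    intro m'
    obtain ⟨m, rfl⟩ := hπ m'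
    obtain ⟨f, rfl⟩ := e.surjective m
    exact ⟨res f, he'_res f⟩
  refine ⟨invSub N, inferInstance, d.hopfAlgebra, hfinA, Module.Flat.of_free, hcocA,
    Equiv.ofBijective e' ⟨he'_inj, he'_surj⟩, ?_, ?_⟩
  · intro φ ψ
    obtain ⟨f, rfl⟩ := hres_surj φ
    obtain ⟨g, rfl⟩ := hres_surj ψ
    show e' (res f * res g) = e' (res f) + e' (res g)
    rw [← hres_mul, he'_res, he'_res, he'_res, hE_mul]
  · intro σ φ ψ hφψ
    obtain ⟨f, rfl⟩ := hres_surj φ
    have hψ : ψ = res (gconj hD σ f) := by
      apply WithConv.ext
      apply AlgHom.ext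
      intro a
      exact hφψ a
    show e' ψ = act' σ (e' (res f))
    rw [hψ, he'_res, he'_res, hE_gal]

end QuotMain

end Fermat.Agent.R.H54
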