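import Fermat.Agent.R.Flat.H54_ClosureSub
import Fermat.Agent.R.Flat.H54_QuotMain

/-!
# Flat closure (cluster R, helper54): `Stmt_FlatQuot`
-/

set_option autoImplicit false
set_option linter.style.haveILetI false

namespace Fermat.Agent.R.H54

/-- **Flatness passes to Galois-equivariant quotients.** -/
theorem stmt_FlatQuot : Stmt_FlatQuot := by
  intro p hp M M' _ _ act act' π hπ heq h
  haveI : Fact p.Prime := ⟨hp⟩
  haveI := ratLocalizedAt_isPrincipalIdealRing p
  exact absFlat_quot (descentData_rat p) act act' π hπ heq h

end Fermat.Agent.R.H54
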