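import Fermat.Agent.R.Flat.H54_QuotMain

/-!
# Flat closure (cluster R, helper54): subquotients, with control of the values

For `G`-stable subgroups `X₁ ⊆ X₂` of the points of a finite cocommutative Hopf algebra `H` over
a principal ideal domain `R`, there is a finite free cocommutative Hopf algebra `A` over `R` and a
map `q` from the points of `H` to the points of `A` which on `X₂` is multiplicative,
`G`-equivariant, has kernel `X₁`, and whose values are values of the original points: for every
`a : A` there is `t : H` with `q f a = f t` for all `f ∈ X₂` and `counit a = counit t`.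
-/

set_option autoImplicit false
set_option linter.unusedSectionVars false
set_option linter.style.haveILetI false

open scoped TensorProduct
open WithConv

namespace Fermat.Agent.R.H54

section Subquot

variable {R K G : Type} [CommRing R] [IsDomain R] [IsPrincipalIdealRing R] [Field K] [Algebra R K]
  [Group G] [MulSemiringAction G K]

lemma resPt_one {H A : Type} [CommRing H] [HopfAlgebra R H] [CommRing A] [HopfAlgebra R A]
    (j : A →ₐ[R] H)
    (hj : ∀ a, Coalgebra.counit (R := R) (j a) = Coalgebra.counit (R := R) a) :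
    resPt j (1 : Pts R H K) = 1 := by
  apply WithConv.ext
  apply AlgHom.ext
  intro a
  show algebraMap R K (Coalgebra.counit (R := R) (j a)) =
    algebraMap R K (Coalgebra.counit (R := R) a)
  rw [hj]

/-- **Subquotients.** -/
theorem exists_subquotient_model (hD : DescentData R K G)
    {H : Type} [CommRing H] [HopfAlgebra R H] [Module.Finite R H] [Coalgebra.IsCocomm R H]
    {X₁ X₂ : Set (Pts R H K)} (hX₁ : IsGSubgroup hD X₁) (hX₂ : IsGSubgroup hD X₂) :
    ∃ (A : Type) (_ : CommRing A) (_ : HopfAlgebra R A),
      Module.Finite R A ∧ Module.Free R A ∧ Coalgebra.IsCocomm R A ∧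
      ∃ q : Pts R H K → Pts R A K,
        (∀ f ∈ X₂, ∀ g ∈ X₂, q (f * g) = q f * q g) ∧
        (∀ f ∈ X₂, (q f = 1 ↔ f ∈ X₁)) ∧
        (∀ (σ : G), ∀ f ∈ X₂, q (gconj hD σ f) = gconj hD σ (q f)) ∧
        (∀ a : A, ∃ t : H, Coalgebra.counit (R := R) a = Coalgebra.counit (R := R) t ∧
          ∀ f ∈ X₂, q f a = f t) := by
  classical
  haveI := vanIdeal_isHopfIdeal hD hX₂
  obtain ⟨hcl, -⟩ := closurePts_eq hD hX₂
  set J := vanIdeal X₂ with hJ
  haveI hfree0 := quot_free hD X₂
  haveI hfree : Module.Free R (H ⧸ J) :=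
    Module.Free.of_equiv (Submodule.Quotient.restrictScalarsEquiv R J)
  haveI hfin : Module.Finite R (H ⧸ J) :=
    Module.Finite.of_surjective (Ideal.Quotient.mkₐ R J).toLinearMap
      (Ideal.Quotient.mkₐ_surjective R J)
  haveI hflat : Module.Flat R (H ⧸ J) := Module.Flat.of_free
  haveI hcoc : Coalgebra.IsCocomm R (H ⧸ J) := isCocomm_quotient J
  -- restriction of points
  let restr : Pts R (H ⧸ J) K → Pts R H K :=
    fun g => toConv (g.ofConv.comp (Ideal.Quotient.mkₐ R J))
  have hrestr_mem : ∀ g, restr g ∈ X₂ := by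
    intro g
    rw [← hcl]
    intro x hx
    show g (Ideal.Quotient.mk J x) = 0
    rw [Ideal.Quotient.eq_zero_iff_mem.mpr hx, map_zero]
  have hrestr_inj : Function.Injective restr := by
    intro g₁ g₂ h
    apply WithConv.ext
    apply AlgHom.ext
    intro a
    obtain ⟨x, rfl⟩ := Ideal.Quotient.mk_surjective a
    have := congrArg (fun f : Pts R H K => f x) h
    exact this
  have hrestr_surj : ∀ f ∈ X₂, ∃ g, restr g = f := by
    intro f hf
    refine ⟨toConv (Ideal.Quotient.liftₐ J f.ofConv (fun x hx => mem_vanIdeal.mp hx f hf)), ?_⟩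
    apply WithConv.ext
    apply AlgHom.ext
    intro x
    rfl
  have hrestr_mul : ∀ f g, restr (f * g) = restr f * restr g := by
    intro f g
    apply WithConv.ext
    exact AlgHom.convMul_comp_bialgHom_distrib f g (Bialgebra.Quotient.mkBialgHom (R := R) J)
  have hrestr_one : restr 1 = 1 := by
    apply WithConv.ext
    apply AlgHom.ext
    intro x
    show algebraMap R K (Coalgebra.counit (R := R) (Ideal.Quotient.mk J x)) =
      algebraMap R K (Coalgebra.counit (R := R) x)
    congr 1
  have hrestr_gal : ∀ (σ : G) g, restr (gconj hD σ g) = gconj hD σ (restr g) := by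
    intro σ g
    rfl
  have hsep : ∀ h : H ⧸ J, (∀ f : Pts R (H ⧸ J) K, f h = 0) → h = 0 := by
    intro a ha
    obtain ⟨x, rfl⟩ := Ideal.Quotient.mk_surjective a
    rw [Ideal.Quotient.eq_zero_iff_mem, hJ, mem_vanIdeal]
    intro f hf
    obtain ⟨g, rfl⟩ := hrestr_surj f hf
    exact ha g
  -- the subgroup `N`
  set N : Set (Pts R (H ⧸ J) K) := {g | restr g ∈ X₁} with hNdef
  have hrestr_inv : ∀ g, restr (pinv g) = pinv (restr g) := by
    intro g
    apply left_inv_eq_right_inv (a := restr g)
    · rw [← hrestr_mul, pinv_mul, hrestr_one]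
    · rw [mul_comm, pinv_mul]
  have hN : IsGSubgroup hD N := by
    refine ⟨?_, ?_, ?_, ?_⟩
    · show restr 1 ∈ X₁
      rw [hrestr_one]
      exact hX₁.one_mem
    · intro f hf g hg
      show restr (f * g) ∈ X₁
      rw [hrestr_mul]
      exact hX₁.mul_mem _ hf _ hg
    · intro f hf
      show restr (pinv f) ∈ X₁
      rw [hrestr_inv]
      exact hX₁.inv_mem _ hf
    · intro σ f hf
      show restr (gconj hD σ f) ∈ X₁
      rw [hrestr_gal]
      exact hX₁.stable σ _ hf
  obtain ⟨-, hNfin⟩ := closurePts_eq hD hN
  have d := subHopfData_inv hD hsep hN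
  letI : HopfAlgebra R (invSub N) := d.hopfAlgebra
  haveI hfinA := finite_inv (R := R) (K := K) (H := H ⧸ J) N
  haveI hfreeA := free_inv (R := R) (K := K) (H := H ⧸ J) N
  have hcocA : Coalgebra.IsCocomm R (invSub N) := d.isCocomm
  set res : Pts R (H ⧸ J) K → Pts R (invSub N) K := resPt (invSub N).val with hres
  have hres_mul : ∀ f g, res (f * g) = res f * res g := resPt_mul _ d.map_comulA
  have hres_one : res 1 = 1 := resPt_one _ (fun _ => rfl)
  -- the lift of a point of `X₂`
  have hlift : ∀ f : Pts R H K, ∃ g : Pts R (H ⧸ J) K, f ∈ X₂ → restr g = f := by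
    intro f
    by_cases hf : f ∈ X₂
    · obtain ⟨g, hg⟩ := hrestr_surj f hf
      exact ⟨g, fun _ => hg⟩
    · exact ⟨1, fun h => absurd h hf⟩
  choose lift hlift' using hlift
  have hlift_mul : ∀ f ∈ X₂, ∀ g ∈ X₂, lift (f * g) = lift f * lift g := by
    intro f hf g hg
    apply hrestr_inj
    rw [hrestr_mul, hlift' f hf, hlift' g hg, hlift' _ (hX₂.mul_mem f hf g hg)]
  have hlift_gal : ∀ (σ : G), ∀ f ∈ X₂, lift (gconj hD σ f) = gconj hD σ (lift f) := by
    intro σ f hf
    apply hrestr_inj
    rw [hrestr_gal, hlift' f hf, hlift' _ (hX₂.stable σ f hf)]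
  refine ⟨invSub N, inferInstance, d.hopfAlgebra, hfinA, hfreeA, hcocA,
    fun f => res (lift f), ?_, ?_, ?_, ?_⟩
  · intro f hf g hg
    show res (lift (f * g)) = res (lift f) * res (lift g)
    rw [hlift_mul f hf g hg, hres_mul]
  · intro f hf
    constructor
    · intro h1
      have h1' : res (lift f) = res 1 := by rw [hres_one]; exact h1
      obtain ⟨k, hk, hk'⟩ := sep_cosets hD hN hNfin 1 (lift f) (by
        intro a ha
        have := congrArg (fun φ : Pts R (invSub N) K => φ ⟨a, ha⟩) h1'
        exact this.symm)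
      rw [one_mul] at hk'
      have : restr (lift f) ∈ X₁ := by rw [hk']; exact hk
      rwa [hlift' f hf] at this
    · intro hf1
      have hk : lift f ∈ N := by
        show restr (lift f) ∈ X₁
        rw [hlift' f hf]
        exact hf1
      show res (lift f) = 1
      rw [← hres_one]
      apply WithConv.ext
      apply AlgHom.ext
      intro a
      have := a.2 1 (lift f) hk
      rw [one_mul] at this
      exact this
  · intro σ f hf
    show res (lift (gconj hD σ f)) = gconj hD σ (res (lift f))
    rw [hlift_gal σ f hf]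
    rfl
  · intro a
    obtain ⟨t, ht⟩ := Ideal.Quotient.mk_surjective (a : H ⧸ J)
    refine ⟨t, ?_, ?_⟩
    · show Coalgebra.counit (R := R) (a : H ⧸ J) = Coalgebra.counit (R := R) t
      rw [← ht]
      rfl
    · intro f hf
      show (lift f) (a : H ⧸ J) = f t
      rw [← ht]
      have := congrArg (fun φ : Pts R H K => φ t) (hlift' f hf)
      exact this

end Subquot

end Fermat.Agent.R.H54
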