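import Fermat.Agent.R.Flat.H54_Prod
import Fermat.Agent.R.Flat.H54_ClosureSub

/-!
# Flat closure (cluster R, helper54): `Stmt_FlatProd`
-/

set_option autoImplicit false

namespace Fermat.Agent.R.H54

open GaloisRep

/-- **Flatness passes to binary products.** -/
theorem stmt_FlatProd : Stmt_FlatProd := by
  intro p _ M M' _ _ act act' h h'
  exact absFlat_prod act act' h h'

end Fermat.Agent.R.H54
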