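import Fermat.Agent.R.Flat.H54_SubMain
import Fermat.Prelude.Def_GaloisRep_Flat

/-!
# Flat closure (cluster R, helper54): the concrete triple `(ℤ_(p), ℚ̄, G_ℚ)`

* `ratLocalizedAt_isPrincipalIdealRing` : `ℤ_(p)` is a principal ideal ring.
* `descentData_rat` : `DescentData ℤ_(p) ℚ̄ G_ℚ`.
-/

set_option autoImplicit false
set_option linter.unusedSectionVars false
set_option linter.style.haveILetI false

namespace Fermat.Agent.R.H54

open GaloisRep

/-- An integer as an element of `ℤ_(p)`. -/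
lemma intCast_val (p : ℕ) (n : ℤ) : (((n : ratLocalizedAt p) : ℚ)) = (n : ℚ) := by
  simp

/-- `ℤ_(p)` is a principal ideal ring. -/
theorem ratLocalizedAt_isPrincipalIdealRing (p : ℕ) : IsPrincipalIdealRing (ratLocalizedAt p) := by
  refine ⟨fun I => ?_⟩
  -- the ideal of integers lying in `I`
  set S : Ideal ℤ := I.comap (Int.castRingHom (ratLocalizedAt p)) with hS
  obtain ⟨g, hg⟩ := (IsPrincipalIdealRing.principal S).principal
  refine ⟨⟨(g : ratLocalizedAt p), ?_⟩⟩
  apply le_antisymm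
  · intro x hx
    -- `den * x = num ∈ I`
    have hden : (((x : ℚ).den : ℤ) : ratLocalizedAt p) * x = (((x : ℚ).num : ℤ) : ratLocalizedAt p) := by
      apply Subtype.ext
      push_cast
      rw [mul_comm]
      exact_mod_cast Rat.mul_den_eq_num (x : ℚ)
    have hnum : (x : ℚ).num ∈ S := by
      rw [hS, Ideal.mem_comap]
      show (((x : ℚ).num : ℤ) : ratLocalizedAt p) ∈ I
      rw [← hden]
      exact I.mul_mem_left _ hx
    rw [hg] at hnum
    obtain ⟨m, hm⟩ := Ideal.mem_span_singleton'.mp hnum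
    -- the element `m / den` of `ℤ_(p)`
    have hmem : ((m : ℚ) / ((x : ℚ).den : ℚ)) ∈ ratLocalizedAt p := by
      show ((m : ℚ) / ((x : ℚ).den : ℚ)).den.Coprime p
      have hdvd : ((m : ℚ) / ((x : ℚ).den : ℚ)).den ∣ (x : ℚ).den := by
        have := Rat.den_dvd m ((x : ℚ).den : ℤ)
        rw [Rat.divInt_eq_div] at this
        exact_mod_cast this
      exact Nat.Coprime.coprime_dvd_left hdvd x.2
    rw [Ideal.mem_span_singleton']
    refine ⟨⟨_, hmem⟩, ?_⟩
    apply Subtype.ext
    show ((m : ℚ) / ((x : ℚ).den : ℚ)) * (((g : ratLocalizedAt p)) : ℚ) = (x : ℚ)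
    rw [intCast_val]
    have h1 : (m : ℚ) * (g : ℚ) = ((x : ℚ).num : ℚ) := by exact_mod_cast hm
    have h2 : ((x : ℚ).den : ℚ) ≠ 0 := by exact_mod_cast (x : ℚ).den_ne_zero
    rw [div_mul_eq_mul_div, h1]
    exact Rat.num_div_den (x : ℚ)
  · rw [Ideal.span_le, Set.singleton_subset_iff]
    have : g ∈ S := by rw [hg]; exact Submodule.mem_span_singleton_self g
    exact this

/-- The absolute Galois group of `ℚ`. -/
abbrev GalQ : Type := AlgebraicClosure ℚ ≃ₐ[ℚ] AlgebraicClosure ℚ

lemma algebraMap_rat_apply (p : ℕ) (r : ratLocalizedAt p) :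
    algebraMap (ratLocalizedAt p) (AlgebraicClosure ℚ) r =
      algebraMap ℚ (AlgebraicClosure ℚ) (r : ℚ) := rfl

/-- The descent data of the triple `(ℤ_(p), ℚ̄, G_ℚ)`. -/
theorem descentData_rat (p : ℕ) :
    DescentData (ratLocalizedAt p) (AlgebraicClosure ℚ) GalQ := by
  refine ⟨?_, ?_, ?_⟩
  · intro a b hab
    rw [algebraMap_rat_apply, algebraMap_rat_apply] at hab
    exact Subtype.ext ((algebraMap ℚ (AlgebraicClosure ℚ)).injective hab)
  · intro σ r
    rw [algebraMap_rat_apply]
    exact σ.commutes _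
  · intro x hx
    haveI : Algebra.IsAlgebraic ℚ (AlgebraicClosure ℚ) := AlgebraicClosure.isAlgebraic ℚ
    haveI : IsAlgClosure ℚ (AlgebraicClosure ℚ) := ⟨inferInstance, inferInstance⟩
    haveI : IsGalois ℚ (AlgebraicClosure ℚ) := inferInstance
    have hbot : x ∈ (⊥ : IntermediateField ℚ (AlgebraicClosure ℚ)) :=
      (InfiniteGalois.mem_bot_iff_fixed x).mpr hx
    obtain ⟨q, rfl⟩ := IntermediateField.mem_bot.mp hbot
    refine ⟨(q.num : ratLocalizedAt p), (q.den : ratLocalizedAt p), ?_, ?_⟩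
    · intro h
      have := congrArg (fun r : ratLocalizedAt p => (r : ℚ)) h
      simp only [Subring.coe_natCast, Subring.coe_zero] at this
      exact q.den_ne_zero (by exact_mod_cast this)
    · rw [algebraMap_rat_apply, algebraMap_rat_apply, ← map_mul]
      congr 1
      push_cast
      rw [mul_comm]
      exact Rat.mul_den_eq_num q

end Fermat.Agent.R.H54
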