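import Mathlib

/-!
# Flat closure (cluster R, helper54): the descent lemma

Abstract setting: `R` a commutative ring, `K` a field which is an `R`-algebra, `G` a group
acting on `K` by ring automorphisms fixing the image of `R`, such that every `G`-fixed element
of `K` is a fraction of elements of `R`.

* `descent_inj` : if `Q` is a free `R`-module with finite basis `b` and `F` is a `G`-stable,
  point-separating set of `R`-linear maps `Q → K`, then the `K`-linear extension
  `K ⊗ Q → (F → K)` is injective: `(∀ f ∈ F, ∑ i, c i * f (b i) = 0) → c = 0`.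
* `tensor_sep` : the family `{f ⊗ f'}` separates the points of `Q ⊗[R] Q'`.
-/

set_option autoImplicit false

open scoped TensorProduct

namespace Fermat.Agent.R.H54

section Descent

variable {R K G : Type*} [CommRing R] [Field K] [Algebra R K] [Group G] [MulSemiringAction G K]

/-- The hypotheses on `(R, K, G)` used throughout: `R → K` is injective, `G` fixes `R`, and the
fixed points of `G` are fractions of elements of `R`. -/
structure DescentData (R K G : Type*) [CommRing R] [Field K] [Algebra R K] [Group G]
    [MulSemiringAction G K] : Prop where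
  inj : Function.Injective (algebraMap R K)
  fixR : ∀ (σ : G) (r : R), σ • algebraMap R K r = algebraMap R K r
  fixed : ∀ x : K, (∀ σ : G, σ • x = x) →
    ∃ a d : R, d ≠ 0 ∧ algebraMap R K d * x = algebraMap R K a

variable {ι : Type*} [Fintype ι] {Q : Type*} [AddCommGroup Q] [Module R Q]

/-- A set of `R`-linear maps to `K` is `G`-stable. -/
def GStable (G : Type*) [Group G] [MulSemiringAction G K] (F : Set (Q →ₗ[R] K)) : Prop :=
  ∀ σ : G, ∀ f ∈ F, ∃ f' ∈ F, ∀ q, f' q = σ • f q

/-- A set of `R`-linear maps to `K` separates the points of `Q`. -/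
def Separating (F : Set (Q →ₗ[R] K)) : Prop :=
  ∀ q : Q, (∀ f ∈ F, f q = 0) → q = 0

open scoped Classical in
private lemma descent_aux (hD : DescentData R K G) (b : Module.Basis ι R Q) (F : Set (Q →ₗ[R] K))
    (hstab : GStable G F) (hsep : Separating F) :
    ∀ (n : ℕ) (c : ι → K), (Finset.univ.filter fun i => c i ≠ 0).card ≤ n →
      (∀ f ∈ F, ∑ i, c i * f (b i) = 0) → c = 0 := by
  intro n
  induction n with
  | zero =>
    intro c hc _
    funext i
    show c i = 0
    by_contra hi
    have : i ∈ Finset.univ.filter fun i => c i ≠ 0 := by simp [hi]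
    have h0 : (Finset.univ.filter fun i => c i ≠ 0) = ∅ := Finset.card_eq_zero.mp (Nat.le_zero.mp hc)
    rw [h0] at this
    exact absurd this (Finset.notMem_empty _)
  | succ n ih =>
    intro c hc hrel
    by_contra hne
    obtain ⟨i₀, hi₀⟩ : ∃ i, c i ≠ 0 := by
      by_contra h
      exact hne (funext fun i => by_contra fun hi => h ⟨i, hi⟩)
    -- normalise
    set μ : ι → K := fun i => c i / c i₀ with hμ
    have hμ0 : μ i₀ = 1 := by simp [hμ, hi₀]
    have hμrel : ∀ f ∈ F, ∑ i, μ i * f (b i) = 0 := by
      intro f hf
      have := hrel f hf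
      have h2 : ∑ i, μ i * f (b i) = (∑ i, c i * f (b i)) / c i₀ := by
        rw [Finset.sum_div]
        refine Finset.sum_congr rfl fun i _ => ?_
        simp only [hμ]; ring
      rw [h2, this, zero_div]
    have hsupp : ∀ i, μ i ≠ 0 → c i ≠ 0 := by
      intro i hi hci
      apply hi
      simp [hμ, hci]
    -- all coordinates of μ are fixed by G
    have hfix : ∀ (σ : G) (i : ι), σ • μ i = μ i := by
      intro σ
      set ν : ι → K := fun i => σ • μ i - μ i with hν
      have hνcard : (Finset.univ.filter fun i => ν i ≠ 0).card ≤ n := by
        have hsub : (Finset.univ.filter fun i => ν i ≠ 0) ⊆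
            (Finset.univ.filter fun i => c i ≠ 0).erase i₀ := by
          intro i hi
          simp only [Finset.mem_filter, Finset.mem_univ, true_and] at hi
          simp only [Finset.mem_erase, Finset.mem_filter, Finset.mem_univ, true_and]
          refine ⟨?_, ?_⟩
          · rintro rfl
            apply hi
            simp [hν, hμ0]
          · apply hsupp
            intro h0
            apply hi
            simp [hν, h0]
        have h1 : ((Finset.univ.filter fun i => c i ≠ 0).erase i₀).card + 1 =
            (Finset.univ.filter fun i => c i ≠ 0).card :=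
          Finset.card_erase_add_one (by simp [hi₀])
        have h2 := Finset.card_le_card hsub
        omega
      have hνrel : ∀ f ∈ F, ∑ i, ν i * f (b i) = 0 := by
        intro f hf
        obtain ⟨f', hf', hff'⟩ := hstab σ⁻¹ f hf
        have h1 : ∀ q, f q = σ • f' q := by
          intro q
          rw [hff' q, smul_inv_smul]
        have h2 : ∑ i, (σ • μ i) * f (b i) = σ • ∑ i, μ i * f' (b i) := by
          rw [Finset.smul_sum]
          refine Finset.sum_congr rfl fun i _ => ?_
          rw [smul_mul', h1]
        have h3 : ∑ i, ν i * f (b i) = ∑ i, (σ • μ i) * f (b i) - ∑ i, μ i * f (b i) := by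
          rw [← Finset.sum_sub_distrib]
          refine Finset.sum_congr rfl fun i _ => ?_
          simp only [hν]; ring
        rw [h3, h2, hμrel f' hf', hμrel f hf, smul_zero, sub_zero]
      have := ih ν hνcard hνrel
      intro i
      have hi := congrFun this i
      simp only [hν, Pi.zero_apply] at hi
      exact sub_eq_zero.mp hi
    -- so the coordinates are fractions
    have hfrac : ∀ i, ∃ a d : R, d ≠ 0 ∧ algebraMap R K d * μ i = algebraMap R K a :=
      fun i => hD.fixed (μ i) (fun σ => hfix σ i)
    choose a d hd had using hfrac
    set D : R := ∏ i, d i with hDdef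
    have hD0 : algebraMap R K D ≠ 0 := by
      rw [hDdef, map_prod]
      refine Finset.prod_ne_zero_iff.mpr fun i _ => ?_
      intro h
      exact hd i (hD.inj (by rw [h, map_zero]))
    -- r i := D * μ i as an element of R
    set r : ι → R := fun i => (∏ j ∈ Finset.univ.erase i, d j) * a i with hr
    have hri : ∀ i, algebraMap R K (r i) = algebraMap R K D * μ i := by
      intro i
      have : D = (∏ j ∈ Finset.univ.erase i, d j) * d i := by
        rw [hDdef, Finset.prod_erase_mul _ _ (Finset.mem_univ i)]
      rw [hr]
      simp only [map_mul]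
      rw [← had i, this, map_mul]
      ring
    have hz : (∑ i, r i • b i) = 0 := by
      apply hsep
      intro f hf
      rw [map_sum]
      have : ∀ i, f (r i • b i) = algebraMap R K D * (μ i * f (b i)) := by
        intro i
        rw [map_smul, Algebra.smul_def, hri]
        ring
      simp only [this]
      rw [← Finset.mul_sum, hμrel f hf, mul_zero]
    have hr0 : ∀ i, r i = 0 := by
      intro i
      have := congrArg (fun q => b.repr q i) hz
      simp only [map_sum, map_smul, Module.Basis.repr_self, map_zero, Finsupp.coe_zero,
        Pi.zero_apply] at this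
      simpa [Finsupp.single_apply, Finset.sum_ite_eq'] using this
    have : algebraMap R K D * μ i₀ = 0 := by rw [← hri, hr0, map_zero]
    rw [hμ0, mul_one] at this
    exact hD0 this

/-- **Descent lemma.** A `G`-stable separating family of `R`-linear maps `Q → K` on a finite free
`R`-module stays separating after extending scalars to `K`. -/
theorem descent_inj (hD : DescentData R K G) (b : Module.Basis ι R Q) (F : Set (Q →ₗ[R] K))
    (hstab : GStable G F) (hsep : Separating F) (c : ι → K)
    (hc : ∀ f ∈ F, ∑ i, c i * f (b i) = 0) : c = 0 :=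
  descent_aux hD b F hstab hsep _ c le_rfl hc

/-- The family `{f ⊗ f'}` separates the points of `Q ⊗[R] Q'` (only `F` needs to be `G`-stable). -/
theorem tensor_sep (hD : DescentData R K G) {ι' : Type*} [Fintype ι'] {Q' : Type*}
    [AddCommGroup Q'] [Module R Q'] (b : Module.Basis ι R Q) (b' : Module.Basis ι' R Q')
    (F : Set (Q →ₗ[R] K)) (F' : Set (Q' →ₗ[R] K))
    (hstab : GStable G F) (hsep : Separating F) (hsep' : Separating F')
    (t : Q ⊗[R] Q')
    (ht : ∀ f ∈ F, ∀ f' ∈ F', LinearMap.mul' R K (TensorProduct.map f f' t) = 0) : t = 0 := by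
  classical
  set B := b.tensorProduct b' with hB
  set c := B.repr t with hc
  have hsum : t = ∑ i, ∑ j, c (i, j) • (b i ⊗ₜ[R] b' j) := by
    conv_lhs => rw [← B.sum_repr t]
    rw [Fintype.sum_prod_type]
    refine Finset.sum_congr rfl fun i _ => Finset.sum_congr rfl fun j _ => ?_
    rw [hB, Module.Basis.tensorProduct_apply]
  have hval : ∀ (f : Q →ₗ[R] K) (f' : Q' →ₗ[R] K),
      LinearMap.mul' R K (TensorProduct.map f f' t) =
        ∑ i, (∑ j, algebraMap R K (c (i, j)) * f' (b' j)) * f (b i) := by
    intro f f'
    rw [hsum]
    simp only [map_sum, map_smul, TensorProduct.map_tmul, LinearMap.mul'_apply]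
    refine Finset.sum_congr rfl fun i _ => ?_
    rw [Finset.sum_mul]
    refine Finset.sum_congr rfl fun j _ => ?_
    rw [Algebra.smul_def]
    ring
  have hzero : ∀ f' ∈ F', ∀ i, (∑ j, algebraMap R K (c (i, j)) * f' (b' j)) = 0 := by
    intro f' hf'
    have := descent_inj hD b F hstab hsep
      (fun i => ∑ j, algebraMap R K (c (i, j)) * f' (b' j))
      (fun f hf => by rw [← hval f f']; exact ht f hf f' hf')
    intro i
    exact congrFun this i
  have hc0 : ∀ i j, c (i, j) = 0 := by
    intro i
    have hz : (∑ j, c (i, j) • b' j) = 0 := by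
      apply hsep'
      intro f' hf'
      rw [map_sum, ← hzero f' hf' i]
      refine Finset.sum_congr rfl fun j _ => ?_
      rw [map_smul, Algebra.smul_def]
    intro j
    have := congrArg (fun q => b'.repr q j) hz
    simp only [map_sum, map_smul, Module.Basis.repr_self, map_zero, Finsupp.coe_zero,
      Pi.zero_apply] at this
    simpa [Finsupp.single_apply, Finset.sum_ite_eq'] using this
  rw [hsum]
  simp [hc0]

end Descent

end Fermat.Agent.R.H54
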