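import Fermat.Agent.R.Flat.H54_Points

/-!
# Flat closure (cluster R, helper54): general lemmas for invariants

* `exists_common_denominator` : finitely many `G`-fixed elements of `K` have a common
  denominator in `R`.
* `pts_eq_of_separating` : a `G`-stable separating set of points of a finite free algebra is
  the set of all points.
* `inv_tensor_left`, `inv_tensor_right` : an element of `Q₁ ⊗ Q₂` which is "invariant in one
  variable" lies in the image of `A ⊗ Q₂` (resp. `Q₁ ⊗ A`), `A` the submodule of invariants.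
-/

set_option autoImplicit false
set_option linter.unusedSectionVars false
set_option linter.style.haveILetI false

open scoped TensorProduct
open WithConv

namespace Fermat.Agent.R.H54

section General

variable {R K G : Type} [CommRing R] [Field K] [Algebra R K] [Group G] [MulSemiringAction G K]

/-- Finitely many `G`-fixed elements of `K` have a common denominator in `R`. -/
theorem exists_common_denominator (hD : DescentData R K G) {ι : Type} [Fintype ι] (x : ι → K)
    (hx : ∀ i (σ : G), σ • x i = x i) :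
    ∃ (D : R) (r : ι → R), algebraMap R K D ≠ 0 ∧
      ∀ i, algebraMap R K (r i) = algebraMap R K D * x i := by
  classical
  have hfrac : ∀ i, ∃ a d : R, d ≠ 0 ∧ algebraMap R K d * x i = algebraMap R K a :=
    fun i => hD.fixed (x i) (hx i)
  choose a d hd had using hfrac
  refine ⟨∏ i, d i, fun i => (∏ j ∈ Finset.univ.erase i, d j) * a i, ?_, ?_⟩
  · rw [map_prod]
    refine Finset.prod_ne_zero_iff.mpr fun i _ => ?_
    intro h
    exact hd i (hD.inj (by rw [h, map_zero]))
  · intro i
    have : (∏ i, d i) = (∏ j ∈ Finset.univ.erase i, d j) * d i := by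
      rw [Finset.prod_erase_mul _ _ (Finset.mem_univ i)]
    simp only [map_mul]
    rw [← had i, this, map_mul]
    ring

/-- A `G`-stable separating set of points of a finite free `R`-algebra is the set of all
points. -/
theorem pts_eq_of_separating (hD : DescentData R K G) {A : Type} [CommRing A] [Algebra R A]
    [Module.Free R A] [Module.Finite R A] (F : Set (A →ₐ[R] K))
    (hstab : ∀ (σ : G), ∀ f ∈ F, conjAlgHom hD σ f ∈ F)
    (hsep : ∀ a : A, (∀ f ∈ F, f a = 0) → a = 0) :
    F = Set.univ ∧ Finite (A →ₐ[R] K) := by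
  classical
  set b := Module.Free.chooseBasis R A with hb
  set ι₀ := Module.Free.ChooseBasisIndex R A
  have e := b.constr (M' := K) K
  haveI : Module.Finite K (A →ₗ[R] K) := Module.Finite.equiv e
  have hfr : Module.finrank K (A →ₗ[R] K) = Fintype.card ι₀ := by
    rw [← LinearEquiv.finrank_eq e, Module.finrank_fintype_fun_eq_card]
  have hli := linearIndependent_algHom_toLinearMap R A K
  haveI hfin : Finite (A →ₐ[R] K) := hli.finite
  haveI : Fintype (A →ₐ[R] K) := Fintype.ofFinite _
  have h1 : Fintype.card (A →ₐ[R] K) ≤ Fintype.card ι₀ := by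
    rw [← hfr]
    exact hli.fintype_card_le_finrank
  haveI : Fintype F := Fintype.ofFinite _
  set Flin : Set (A →ₗ[R] K) := {φ | ∃ f ∈ F, φ = (f : A →ₐ[R] K).toLinearMap} with hFlin
  have hFstab : GStable G Flin := by
    rintro σ _ ⟨f, hf, rfl⟩
    exact ⟨(conjAlgHom hD σ f).toLinearMap, ⟨_, hstab σ f hf, rfl⟩, fun _ => rfl⟩
  have hFsep : Separating Flin := by
    intro a ha
    exact hsep a (fun f hf => ha _ ⟨f, hf, rfl⟩)
  let ev : (ι₀ → K) →ₗ[K] (F → K) :=
    { toFun := fun c f => ∑ i, c i * (f : A →ₐ[R] K) (b i)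
      map_add' := fun c c' => by
        funext f
        simp only [Pi.add_apply, add_mul, Finset.sum_add_distrib]
      map_smul' := fun a c => by
        funext f
        simp only [Pi.smul_apply, smul_eq_mul, RingHom.id_apply, Finset.mul_sum, mul_assoc] }
  have hev : Function.Injective ev := by
    rw [← LinearMap.ker_eq_bot, LinearMap.ker_eq_bot']
    intro c hc
    apply descent_inj hD b Flin hFstab hFsep c
    rintro _ ⟨f, hf, rfl⟩
    exact congrFun hc ⟨f, hf⟩
  have h2 : Fintype.card ι₀ ≤ Fintype.card F := by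
    have := LinearMap.finrank_le_finrank_of_injective hev
    rwa [Module.finrank_fintype_fun_eq_card, Module.finrank_fintype_fun_eq_card] at this
  refine ⟨?_, hfin⟩
  have h3 : (Set.univ : Set (A →ₐ[R] K)).ncard ≤ F.ncard := by
    rw [Set.ncard_univ, ← Nat.card_coe_set_eq, Nat.card_eq_fintype_card,
      Nat.card_eq_fintype_card]
    exact h1.trans h2
  exact Set.eq_of_subset_of_ncard_le (Set.subset_univ F) h3 (Set.toFinite _)

variable {Q₁ Q₂ : Type} [AddCommGroup Q₁] [Module R Q₁] [AddCommGroup Q₂] [Module R Q₂]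

/-- The submodule of elements on which all pairs of `P` agree. -/
def eqSub (P : Set ((Q₁ →ₗ[R] K) × (Q₁ →ₗ[R] K))) : Submodule R Q₁ where
  carrier := {q | ∀ uv ∈ P, uv.1 q = uv.2 q}
  add_mem' := fun ha hb uv huv => by rw [map_add, map_add, ha uv huv, hb uv huv]
  zero_mem' := fun uv _ => by rw [map_zero, map_zero]
  smul_mem' := fun r q hq uv huv => by rw [map_smul, map_smul, hq uv huv]

lemma mem_eqSub {P : Set ((Q₁ →ₗ[R] K) × (Q₁ →ₗ[R] K))} {q : Q₁} :
    q ∈ eqSub P ↔ ∀ uv ∈ P, uv.1 q = uv.2 q := Iff.rfl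

/-- An element of `Q₁ ⊗ Q₂` which is invariant in the first variable lies in the image of
`A ⊗ Q₂`, where `A` is the submodule of invariants of `Q₁`. -/
theorem inv_tensor_left (hD : DescentData R K G) {κ : Type} [Fintype κ]
    (c : Module.Basis κ R Q₂) (F₂ : Set (Q₂ →ₗ[R] K)) (hstab : GStable G F₂)
    (hsep : Separating F₂) (P : Set ((Q₁ →ₗ[R] K) × (Q₁ →ₗ[R] K))) (t : Q₁ ⊗[R] Q₂)
    (ht : ∀ uv ∈ P, ∀ g ∈ F₂, LinearMap.mul' R K (TensorProduct.map uv.1 g t) =
      LinearMap.mul' R K (TensorProduct.map uv.2 g t)) :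
    t ∈ LinearMap.range (LinearMap.rTensor Q₂ (eqSub P).subtype) := by
  classical
  obtain ⟨b, rfl⟩ := TensorProduct.eq_repr_basis_right c t
  rw [Finsupp.sum_fintype _ _ (fun i => by simp)] at ht ⊢
  have hmem : ∀ i, b i ∈ eqSub P := by
    intro i uv huv
    have := descent_inj hD c F₂ hstab hsep (fun i => uv.1 (b i) - uv.2 (b i)) (by
      intro g hg
      have h := ht uv huv g hg
      simp only [map_sum, TensorProduct.map_tmul, LinearMap.mul'_apply] at h
      simp only [sub_mul, Finset.sum_sub_distrib]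
      exact sub_eq_zero.mpr h)
    exact sub_eq_zero.mp (congrFun this i)
  refine ⟨∑ i, (⟨b i, hmem i⟩ : eqSub P) ⊗ₜ[R] c i, ?_⟩
  simp only [map_sum, LinearMap.rTensor_tmul, Submodule.subtype_apply]

/-- An element of `Q₁ ⊗ Q₂` which is invariant in the second variable lies in the image of
`Q₁ ⊗ A`, where `A` is the submodule of invariants of `Q₂`. -/
theorem inv_tensor_right (hD : DescentData R K G) {κ : Type} [Fintype κ]
    (c : Module.Basis κ R Q₁) (F₁ : Set (Q₁ →ₗ[R] K)) (hstab : GStable G F₁)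
    (hsep : Separating F₁) (P : Set ((Q₂ →ₗ[R] K) × (Q₂ →ₗ[R] K))) (t : Q₁ ⊗[R] Q₂)
    (ht : ∀ uv ∈ P, ∀ g ∈ F₁, LinearMap.mul' R K (TensorProduct.map g uv.1 t) =
      LinearMap.mul' R K (TensorProduct.map g uv.2 t)) :
    t ∈ LinearMap.range (LinearMap.lTensor Q₁ (eqSub P).subtype) := by
  classical
  obtain ⟨b, rfl⟩ := TensorProduct.eq_repr_basis_left c t
  rw [Finsupp.sum_fintype _ _ (fun i => by simp)] at ht ⊢
  have hmem : ∀ i, b i ∈ eqSub P := by
    intro i uv huv
    have := descent_inj hD c F₁ hstab hsep (fun i => uv.1 (b i) - uv.2 (b i)) (by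
      intro g hg
      have h := ht uv huv g hg
      simp only [map_sum, TensorProduct.map_tmul, LinearMap.mul'_apply] at h
      simp only [sub_mul, Finset.sum_sub_distrib]
      rw [sub_eq_zero]
      simpa only [mul_comm] using h)
    exact sub_eq_zero.mp (congrFun this i)
  refine ⟨∑ i, c i ⊗ₜ[R] (⟨b i, hmem i⟩ : eqSub P), ?_⟩
  simp only [map_sum, LinearMap.lTensor_tmul, Submodule.subtype_apply]

/-- Existential form of `inv_tensor_left` (no subtypes). -/
theorem inv_tensor_left' (hD : DescentData R K G) {κ : Type} [Fintype κ]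
    (c : Module.Basis κ R Q₂) (F₂ : Set (Q₂ →ₗ[R] K)) (hstab : GStable G F₂)
    (hsep : Separating F₂) (P : Set ((Q₁ →ₗ[R] K) × (Q₁ →ₗ[R] K))) (t : Q₁ ⊗[R] Q₂)
    (ht : ∀ uv ∈ P, ∀ g ∈ F₂, LinearMap.mul' R K (TensorProduct.map uv.1 g t) =
      LinearMap.mul' R K (TensorProduct.map uv.2 g t)) :
    ∃ q : κ → Q₁, (∀ i, ∀ uv ∈ P, uv.1 (q i) = uv.2 (q i)) ∧ t = ∑ i, q i ⊗ₜ[R] c i := by
  classical
  obtain ⟨b, rfl⟩ := TensorProduct.eq_repr_basis_right c t
  rw [Finsupp.sum_fintype _ _ (fun i => by simp)] at ht ⊢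
  refine ⟨fun i => b i, ?_, rfl⟩
  intro i uv huv
  have := descent_inj hD c F₂ hstab hsep (fun i => uv.1 (b i) - uv.2 (b i)) (by
    intro g hg
    have h := ht uv huv g hg
    simp only [map_sum, TensorProduct.map_tmul, LinearMap.mul'_apply] at h
    simp only [sub_mul, Finset.sum_sub_distrib]
    exact sub_eq_zero.mpr h)
  exact sub_eq_zero.mp (congrFun this i)

/-- Existential form of `inv_tensor_right` (no subtypes). -/
theorem inv_tensor_right' (hD : DescentData R K G) {κ : Type} [Fintype κ]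
    (c : Module.Basis κ R Q₁) (F₁ : Set (Q₁ →ₗ[R] K)) (hstab : GStable G F₁)
    (hsep : Separating F₁) (P : Set ((Q₂ →ₗ[R] K) × (Q₂ →ₗ[R] K))) (t : Q₁ ⊗[R] Q₂)
    (ht : ∀ uv ∈ P, ∀ g ∈ F₁, LinearMap.mul' R K (TensorProduct.map g uv.1 t) =
      LinearMap.mul' R K (TensorProduct.map g uv.2 t)) :
    ∃ q : κ → Q₂, (∀ i, ∀ uv ∈ P, uv.1 (q i) = uv.2 (q i)) ∧ t = ∑ i, c i ⊗ₜ[R] q i := by
  classical
  obtain ⟨b, rfl⟩ := TensorProduct.eq_repr_basis_left c t
  rw [Finsupp.sum_fintype _ _ (fun i => by simp)] at ht ⊢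
  refine ⟨fun i => b i, ?_, rfl⟩
  intro i uv huv
  have := descent_inj hD c F₁ hstab hsep (fun i => uv.1 (b i) - uv.2 (b i)) (by
    intro g hg
    have h := ht uv huv g hg
    simp only [map_sum, TensorProduct.map_tmul, LinearMap.mul'_apply] at h
    simp only [sub_mul, Finset.sum_sub_distrib]
    rw [sub_eq_zero]
    simpa only [mul_comm] using h)
  exact sub_eq_zero.mp (congrFun this i)

end General

end Fermat.Agent.R.H54
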