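import Fermat.Agent.R.Flat.H54_Prod

/-!
# Flat closure (cluster R, helper54): finite products

`AbsFlat` is invariant under equivariant additive bijections, holds for the trivial group, and
is closed under finite products indexed by `Fin r`.
-/

set_option autoImplicit false
set_option linter.unusedSectionVars false
set_option linter.style.haveILetI false

open scoped TensorProduct
open WithConv

namespace Fermat.Agent.R.H54

section Pi

variable {R K G : Type} [CommRing R] [Field K] [Algebra R K] [Group G] [MulSemiringAction G K]

/-- Transport of `AbsFlat` along an equivariant additive bijection. -/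
theorem AbsFlat.of_equiv {M M' : Type} [AddCommGroup M] [AddCommGroup M']
    {act : G → M → M} {act' : G → M' → M'} (φ : M ≃+ M')
    (hφ : ∀ σ x, φ (act σ x) = act' σ (φ x)) (h : AbsFlat R K G M act) :
    AbsFlat R K G M' act' := by
  obtain ⟨H, i1, i2, h1, h2, h3, e, he_mul, he_gal⟩ := h
  refine ⟨H, i1, i2, h1, h2, h3, e.trans φ.toEquiv, ?_, ?_⟩
  · intro f g
    show φ (e (f * g)) = φ (e f) + φ (e g)
    rw [he_mul, map_add]
  · intro σ f g hfg
    show φ (e g) = act' σ (φ (e f))
    rw [he_gal σ f g hfg, hφ]

/-- The trivial group is flat. -/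
theorem absFlat_unique (M : Type) [AddCommGroup M] [Subsingleton M] (act : G → M → M) :
    AbsFlat R K G M act := by
  have hsub : Subsingleton (Pts R R K) := by
    refine ⟨fun f g => ?_⟩
    apply WithConv.ext
    apply AlgHom.ext
    intro r
    have hf := f.ofConv.commutes r
    have hg := g.ofConv.commutes r
    rw [Algebra.algebraMap_self_apply] at hf hg
    rw [hf, hg]
  refine ⟨R, inferInstance, inferInstance, inferInstance, inferInstance, inferInstance,
    ⟨fun _ => 0, fun _ => 1, fun f => Subsingleton.elim _ _, fun m => Subsingleton.elim _ _⟩,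
    ?_, ?_⟩
  · intro f g
    exact Subsingleton.elim _ _
  · intro σ f g _
    exact Subsingleton.elim _ _

/-- The additive bijection splitting off the first coordinate. -/
def piSplit {r : ℕ} (M : Fin (r + 1) → Type) [∀ i, AddCommGroup (M i)] :
    (M 0 × (∀ i : Fin r, M i.succ)) ≃+ (∀ i, M i) where
  toFun y := Fin.cons (α := M) y.1 y.2
  invFun x := (x 0, fun i => x i.succ)
  left_inv y := by
    ext
    · simp
    · simp
  right_inv x := by
    funext i
    refine Fin.cases ?_ (fun j => ?_) i
    · simp
    · simp
  map_add' y z := by
    funext i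
    refine Fin.cases ?_ (fun j => ?_) i
    · simp
    · simp

/-- **Flatness passes to finite products** (abstract form). -/
theorem absFlat_pi : ∀ (r : ℕ) (M : Fin r → Type) [∀ i, AddCommGroup (M i)]
    (act : ∀ i, G → M i → M i), (∀ i, AbsFlat R K G (M i) (act i)) →
    AbsFlat R K G (∀ i, M i) (fun σ x i => act i σ (x i))
  | 0, M, _, act, _ => absFlat_unique _ _
  | r + 1, M, _, act, h => by
    have ih := absFlat_pi r (fun i => M i.succ) (fun i => act i.succ) (fun i => h i.succ)
    have hp := absFlat_prod (act 0) _ (h 0) ih
    refine AbsFlat.of_equiv (piSplit M) ?_ hp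
    intro σ y
    funext i
    refine Fin.cases ?_ (fun j => ?_) i
    · simp [piSplit]
    · simp [piSplit]

end Pi

end Fermat.Agent.R.H54
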