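import Fermat.Agent.R.Flat.H54_Descent

/-!
# Flat closure (cluster R, helper54): points of a Hopf algebra with values in `K`

`Pts R H K := WithConv (H →ₐ[R] K)` with the convolution product.  We collect:
* `gconj σ f` : the conjugate point `h ↦ σ • f h`;
* `pinv f`    : the point `f ∘ antipode`, which is the convolution inverse of `f`;
* `convMul_apply'` : `(f * g) h = μ ((f ⊗ g) (Δ h))`;
* `IsGSubgroup X'` : `X'` is a `G`-stable subgroup of the points;
* finiteness of the set of points of a finite free algebra (Dedekind).
-/

set_option autoImplicit false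

open scoped TensorProduct
open WithConv

namespace Fermat.Agent.R.H54

section Points

variable {R K G : Type} [CommRing R] [Field K] [Algebra R K] [Group G] [MulSemiringAction G K]
variable {H : Type} [CommRing H] [HopfAlgebra R H]

/-- The points of `H` with values in `K`, with the convolution product. -/
abbrev Pts (R H K : Type) [CommRing R] [Field K] [Algebra R K] [CommRing H] [HopfAlgebra R H] :
    Type := WithConv (H →ₐ[R] K)

/-- The conjugate `h ↦ σ • f h` of an `R`-algebra homomorphism `f : A → K`. -/
def conjAlgHom (hD : DescentData R K G) {A : Type} [CommRing A] [Algebra R A] (σ : G)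
    (f : A →ₐ[R] K) : A →ₐ[R] K :=
  { (MulSemiringAction.toRingHom G K σ).comp (f : A →+* K) with
    commutes' := fun r => by
      show σ • f (algebraMap R A r) = algebraMap R K r
      rw [f.commutes, hD.fixR] }

@[simp] lemma conjAlgHom_apply (hD : DescentData R K G) {A : Type} [CommRing A] [Algebra R A]
    (σ : G) (f : A →ₐ[R] K) (a : A) : conjAlgHom hD σ f a = σ • f a := rfl

/-- The conjugate point. -/
def gconj (hD : DescentData R K G) (σ : G) (f : Pts R H K) : Pts R H K :=
  toConv (conjAlgHom hD σ f.ofConv)

@[simp] lemma gconj_apply (hD : DescentData R K G) (σ : G) (f : Pts R H K) (h : H) :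
    gconj hD σ f h = σ • f h := rfl

/-- The inverse point `f ∘ antipode`. -/
noncomputable def pinv (f : Pts R H K) : Pts R H K :=
  toConv (f.ofConv.comp (HopfAlgebra.antipodeAlgHom R H))

@[simp] lemma pinv_apply (f : Pts R H K) (h : H) :
    pinv f h = f (HopfAlgebra.antipode R h) := rfl

lemma convMul_apply' (f g : Pts R H K) (h : H) :
    (f * g) h = LinearMap.mul' R K
      (TensorProduct.map f.ofConv.toLinearMap g.ofConv.toLinearMap (Coalgebra.comul h)) := by
  rw [AlgHom.convMul_apply]
  induction (Coalgebra.comul (R := R) h) using TensorProduct.induction_on with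
  | zero => simp
  | tmul a b => simp
  | add x y hx hy => simp [hx, hy]

lemma pinv_mul (f : Pts R H K) : pinv f * f = 1 := by
  apply WithConv.ext
  apply AlgHom.ext
  intro h
  show (pinv f * f) h = (1 : Pts R H K) h
  rw [convMul_apply', AlgHom.convOne_apply]
  have key : ∀ t : H ⊗[R] H,
      LinearMap.mul' R K
        (TensorProduct.map (pinv f).ofConv.toLinearMap f.ofConv.toLinearMap t) =
      f (LinearMap.mul' R H ((HopfAlgebra.antipode R).rTensor H t)) := by
    intro t
    induction t using TensorProduct.induction_on with
    | zero => simp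
    | tmul a b =>
      simp only [TensorProduct.map_tmul, LinearMap.mul'_apply, LinearMap.rTensor_tmul,
        AlgHom.toLinearMap_apply]
      show f (HopfAlgebra.antipode R a) * f b = f (HopfAlgebra.antipode R a * b)
      rw [← map_mul]
    | add x y hx hy => simp only [map_add, hx, hy]
  rw [key, HopfAlgebra.mul_antipode_rTensor_comul_apply]
  exact f.ofConv.commutes _

/-- A `G`-stable subgroup of the group of points. -/
structure IsGSubgroup (hD : DescentData R K G) (X' : Set (Pts R H K)) : Prop where
  one_mem : (1 : Pts R H K) ∈ X'
  mul_mem : ∀ f ∈ X', ∀ g ∈ X', f * g ∈ X'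
  inv_mem : ∀ f ∈ X', pinv f ∈ X'
  stable : ∀ (σ : G), ∀ f ∈ X', gconj hD σ f ∈ X'

end Points

end Fermat.Agent.R.H54
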