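import Fermat.Agent.R.Flat.H54_SubMain

/-!
# Flat closure (cluster R, helper54): products

The tensor product of two finite flat cocommutative Hopf algebras has the product of the groups
of points as its group of points.
-/

set_option autoImplicit false
set_option linter.unusedSectionVars false
set_option linter.style.haveILetI false

open scoped TensorProduct
open WithConv

namespace Fermat.Agent.R.H54

section Prod

variable {R K G : Type} [CommRing R] [Field K] [Algebra R K] [Group G] [MulSemiringAction G K]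
variable {H H' : Type} [CommRing H] [HopfAlgebra R H] [CommRing H'] [HopfAlgebra R H']

/-- The point of `H ⊗ H'` attached to a pair of points. -/
noncomputable def prodPt (f : Pts R H K) (g : Pts R H' K) : Pts R (H ⊗[R] H') K :=
  toConv (Algebra.TensorProduct.lift f.ofConv g.ofConv (fun _ _ => Commute.all _ _))

@[simp] lemma prodPt_tmul (f : Pts R H K) (g : Pts R H' K) (a : H) (b : H') :
    prodPt f g (a ⊗ₜ[R] b) = f a * g b := by
  simp [prodPt]

/-- The first component of a point of `H ⊗ H'`. -/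
noncomputable def fstPt (φ : Pts R (H ⊗[R] H') K) : Pts R H K :=
  toConv (φ.ofConv.comp Algebra.TensorProduct.includeLeft)

/-- The second component of a point of `H ⊗ H'`. -/
noncomputable def sndPt (φ : Pts R (H ⊗[R] H') K) : Pts R H' K :=
  toConv (φ.ofConv.comp Algebra.TensorProduct.includeRight)

@[simp] lemma fstPt_apply (φ : Pts R (H ⊗[R] H') K) (a : H) : fstPt φ a = φ (a ⊗ₜ[R] 1) := rfl

@[simp] lemma sndPt_apply (φ : Pts R (H ⊗[R] H') K) (b : H') : sndPt φ b = φ (1 ⊗ₜ[R] b) := rfl

lemma fstPt_prodPt (f : Pts R H K) (g : Pts R H' K) : fstPt (prodPt f g) = f := by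
  apply WithConv.ext
  apply AlgHom.ext
  intro a
  show prodPt f g (a ⊗ₜ[R] 1) = f a
  rw [prodPt_tmul]
  have : g (1 : H') = 1 := map_one g.ofConv
  rw [this, mul_one]

lemma sndPt_prodPt (f : Pts R H K) (g : Pts R H' K) : sndPt (prodPt f g) = g := by
  apply WithConv.ext
  apply AlgHom.ext
  intro b
  show prodPt f g (1 ⊗ₜ[R] b) = g b
  rw [prodPt_tmul]
  have : f (1 : H) = 1 := map_one f.ofConv
  rw [this, one_mul]

lemma prodPt_fst_snd (φ : Pts R (H ⊗[R] H') K) : prodPt (fstPt φ) (sndPt φ) = φ := by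
  apply WithConv.ext
  apply Algebra.TensorProduct.ext'
  intro a b
  show prodPt (fstPt φ) (sndPt φ) (a ⊗ₜ[R] b) = φ (a ⊗ₜ[R] b)
  rw [prodPt_tmul, fstPt_apply, sndPt_apply]
  have : φ (a ⊗ₜ[R] 1) * φ (1 ⊗ₜ[R] b) = φ ((a ⊗ₜ[R] 1) * (1 ⊗ₜ[R] b)) :=
    (map_mul φ.ofConv _ _).symm
  rw [this, Algebra.TensorProduct.tmul_mul_tmul, mul_one, one_mul]

/-- The points of `H ⊗ H'` are the pairs of points. -/
noncomputable def prodPtEquiv : Pts R (H ⊗[R] H') K ≃ Pts R H K × Pts R H' K where
  toFun φ := (fstPt φ, sndPt φ)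
  invFun fg := prodPt fg.1 fg.2
  left_inv φ := prodPt_fst_snd φ
  right_inv fg := Prod.ext (fstPt_prodPt fg.1 fg.2) (sndPt_prodPt fg.1 fg.2)

private lemma prod_key (f f' : Pts R H K) (g g' : Pts R H' K) (s : H ⊗[R] H) (t : H' ⊗[R] H') :
    LinearMap.mul' R K (TensorProduct.map (prodPt f g).ofConv.toLinearMap
        (prodPt f' g').ofConv.toLinearMap
        (TensorProduct.AlgebraTensorModule.tensorTensorTensorComm R R R R H H H' H' (s ⊗ₜ t))) =
      LinearMap.mul' R K (TensorProduct.map f.ofConv.toLinearMap f'.ofConv.toLinearMap s) *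
        LinearMap.mul' R K (TensorProduct.map g.ofConv.toLinearMap g'.ofConv.toLinearMap t) := by
  induction s using TensorProduct.induction_on with
  | zero => simp
  | add x y hx hy => simp only [TensorProduct.add_tmul, map_add, hx, hy, add_mul]
  | tmul a₁ a₂ =>
    induction t using TensorProduct.induction_on with
    | zero => simp
    | add x y hx hy => simp only [TensorProduct.tmul_add, map_add, hx, hy, mul_add]
    | tmul b₁ b₂ =>
      simp only [TensorProduct.AlgebraTensorModule.tensorTensorTensorComm_tmul,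
        TensorProduct.map_tmul, LinearMap.mul'_apply, AlgHom.toLinearMap_apply]
      show prodPt f g (a₁ ⊗ₜ[R] b₁) * prodPt f' g' (a₂ ⊗ₜ[R] b₂) = _
      rw [prodPt_tmul, prodPt_tmul]
      ring

lemma prodPt_mul (f f' : Pts R H K) (g g' : Pts R H' K) :
    prodPt (f * f') (g * g') = prodPt f g * prodPt f' g' := by
  apply WithConv.ext
  apply Algebra.TensorProduct.ext'
  intro a b
  show prodPt (f * f') (g * g') (a ⊗ₜ[R] b) = (prodPt f g * prodPt f' g') (a ⊗ₜ[R] b)
  rw [prodPt_tmul, convMul_apply', convMul_apply', convMul_apply', ← prod_key]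
  rfl

/-- **Flatness passes to products** (abstract form). -/
theorem absFlat_prod {M M' : Type} [AddCommGroup M] [AddCommGroup M']
    (act : G → M → M) (act' : G → M' → M')
    (h : AbsFlat R K G M act) (h' : AbsFlat R K G M' act') :
    AbsFlat R K G (M × M') (fun σ x => (act σ x.1, act' σ x.2)) := by
  obtain ⟨H, _, _, hfin, hflat, hcoc, e, he_mul, he_gal⟩ := h
  obtain ⟨H', _, _, hfin', hflat', hcoc', e', he'_mul, he'_gal⟩ := h'
  refine ⟨H ⊗[R] H', inferInstance, inferInstance, inferInstance, inferInstance, inferInstance,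
    prodPtEquiv.trans (e.prodCongr e'), ?_, ?_⟩
  · intro φ ψ
    have hφ := prodPt_fst_snd φ
    have hψ := prodPt_fst_snd ψ
    have : fstPt (φ * ψ) = fstPt φ * fstPt ψ ∧ sndPt (φ * ψ) = sndPt φ * sndPt ψ := by
      rw [← hφ, ← hψ, ← prodPt_mul, fstPt_prodPt, sndPt_prodPt, fstPt_prodPt, sndPt_prodPt,
        fstPt_prodPt, sndPt_prodPt]
      exact ⟨rfl, rfl⟩
    apply Prod.ext
    · show e (fstPt (φ * ψ)) = e (fstPt φ) + e (fstPt ψ)
      rw [this.1, he_mul]
    · show e' (sndPt (φ * ψ)) = e' (sndPt φ) + e' (sndPt ψ)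
      rw [this.2, he'_mul]
  · intro σ φ ψ hφψ
    apply Prod.ext
    · exact he_gal σ (fstPt φ) (fstPt ψ) (fun a => hφψ _)
    · exact he'_gal σ (sndPt φ) (sndPt ψ) (fun b => hφψ _)

end Prod

end Fermat.Agent.R.H54
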