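import Mathlib

/-!
# Flat closure (cluster R, helper54): sub-Hopf algebras

Let `H` be a commutative Hopf algebra over `R` and `j : A →ₐ[R] H` an injective homomorphism of
commutative `R`-algebras such that `j ⊗ j` and `j ⊗ (j ⊗ j)` are injective, the
comultiplication of `H` maps `j A` into `(j ⊗ j) (A ⊗ A)` and the antipode maps `j A` into
`j A`.  Then `A` carries a unique Hopf algebra structure for which `j` is compatible with
comultiplication, counit and antipode (`SubHopfData.hopfAlgebra`).
-/

set_option autoImplicit false
set_option linter.unusedSectionVars false
set_option linter.style.haveILetI false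

open scoped TensorProduct
open TensorProduct

namespace Fermat.Agent.R.H54

section SubHopf

variable {R H A : Type} [CommRing R] [CommRing H] [HopfAlgebra R H] [CommRing A] [Algebra R A]

/-- The hypotheses making `A` a sub-Hopf algebra of `H` via `j`. -/
structure SubHopfData (j : A →ₐ[R] H) : Prop where
  inj : Function.Injective j
  inj2 : Function.Injective (TensorProduct.map j.toLinearMap j.toLinearMap)
  inj3 : Function.Injective
    (TensorProduct.map j.toLinearMap (TensorProduct.map j.toLinearMap j.toLinearMap))
  comul_mem : ∀ a : A, Coalgebra.comul (R := R) (j a) ∈
    LinearMap.range (TensorProduct.map j.toLinearMap j.toLinearMap)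
  antipode_mem : ∀ a : A, HopfAlgebra.antipode R (j a) ∈ LinearMap.range j.toLinearMap

namespace SubHopfData

variable {j : A →ₐ[R] H} (d : SubHopfData j)

/-- The comultiplication of `A`. -/
noncomputable def comulA : A →ₗ[R] A ⊗[R] A :=
  (LinearEquiv.ofInjective (TensorProduct.map j.toLinearMap j.toLinearMap) d.inj2).symm.toLinearMap
    ∘ₗ LinearMap.codRestrict _ (Coalgebra.comul ∘ₗ j.toLinearMap) d.comul_mem

lemma map_comulA (a : A) :
    TensorProduct.map j.toLinearMap j.toLinearMap (d.comulA a) = Coalgebra.comul (R := R) (j a) := by
  simp only [comulA, LinearMap.coe_comp, LinearEquiv.coe_coe, Function.comp_apply]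
  rw [LinearEquiv.ofInjective_symm_apply]
  rfl

/-- The antipode of `A`. -/
noncomputable def antipodeA : A →ₗ[R] A :=
  (LinearEquiv.ofInjective j.toLinearMap d.inj).symm.toLinearMap
    ∘ₗ LinearMap.codRestrict _ (HopfAlgebra.antipode R ∘ₗ j.toLinearMap) d.antipode_mem

lemma j_antipodeA (a : A) : j (d.antipodeA a) = HopfAlgebra.antipode R (j a) := by
  simp only [antipodeA, LinearMap.coe_comp, LinearEquiv.coe_coe, Function.comp_apply]
  have := LinearEquiv.ofInjective_symm_apply (f := j.toLinearMap) (h := d.inj)
    (LinearMap.codRestrict _ (HopfAlgebra.antipode R ∘ₗ j.toLinearMap) d.antipode_mem a)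
  exact this

/-- The counit of `A`. -/
noncomputable def counitA (j : A →ₐ[R] H) : A →ₗ[R] R := Coalgebra.counit ∘ₗ j.toLinearMap

/-- The coalgebra structure (data) on `A`. -/
@[reducible] noncomputable def coalgebraStruct : CoalgebraStruct R A where
  comul := d.comulA
  counit := counitA j

/-- The coalgebra structure on `A`. -/
@[reducible] noncomputable def coalgebra : Coalgebra R A :=
  { d.coalgebraStruct with
    coassoc := by
      apply LinearMap.ext
      intro a
      apply d.inj3
      show TensorProduct.map j.toLinearMap (TensorProduct.map j.toLinearMap j.toLinearMap)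
          (TensorProduct.assoc R A A A ((d.comulA).rTensor A (d.comulA a))) =
        TensorProduct.map j.toLinearMap (TensorProduct.map j.toLinearMap j.toLinearMap)
          ((d.comulA).lTensor A (d.comulA a))
      have h1 : ∀ t : A ⊗[R] A,
          TensorProduct.map j.toLinearMap (TensorProduct.map j.toLinearMap j.toLinearMap)
            (TensorProduct.assoc R A A A ((d.comulA).rTensor A t)) =
          TensorProduct.assoc R H H H ((Coalgebra.comul (R := R) (A := H)).rTensor H
            (TensorProduct.map j.toLinearMap j.toLinearMap t)) := by
        intro t
        rw [TensorProduct.map_map_assoc]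
        congr 1
        induction t using TensorProduct.induction_on with
        | zero => simp
        | tmul x y =>
          simp only [LinearMap.rTensor_tmul, TensorProduct.map_tmul, d.map_comulA]
          rfl
        | add x y hx hy => simp only [map_add, hx, hy]
      have h2 : ∀ t : A ⊗[R] A,
          TensorProduct.map j.toLinearMap (TensorProduct.map j.toLinearMap j.toLinearMap)
            ((d.comulA).lTensor A t) =
          (Coalgebra.comul (R := R) (A := H)).lTensor H
            (TensorProduct.map j.toLinearMap j.toLinearMap t) := by
        intro t
        induction t using TensorProduct.induction_on with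
        | zero => simp
        | tmul x y =>
          simp only [LinearMap.lTensor_tmul, TensorProduct.map_tmul, d.map_comulA]
          rfl
        | add x y hx hy => simp only [map_add, hx, hy]
      rw [h1, h2, d.map_comulA]
      exact LinearMap.congr_fun (Coalgebra.coassoc (R := R) (A := H)) (j a)
    rTensor_counit_comp_comul := by
      apply LinearMap.ext
      intro a
      have hinj : Function.Injective (LinearMap.lTensor R j.toLinearMap) :=
        Module.Flat.lTensor_preserves_injective_linearMap _ d.inj
      apply hinj
      show LinearMap.lTensor R j.toLinearMap ((counitA j).rTensor A (d.comulA a)) =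
        LinearMap.lTensor R j.toLinearMap ((1 : R) ⊗ₜ[R] a)
      have h1 : ∀ t : A ⊗[R] A, LinearMap.lTensor R j.toLinearMap ((counitA j).rTensor A t) =
          (Coalgebra.counit (R := R) (A := H)).rTensor H
            (TensorProduct.map j.toLinearMap j.toLinearMap t) := by
        intro t
        induction t using TensorProduct.induction_on with
        | zero => simp
        | tmul x y => rfl
        | add x y hx hy => simp only [map_add, hx, hy]
      rw [h1, d.map_comulA]
      exact LinearMap.congr_fun (Coalgebra.rTensor_counit_comp_comul (R := R) (A := H)) (j a)
    lTensor_counit_comp_comul := by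
      apply LinearMap.ext
      intro a
      have hinj : Function.Injective (LinearMap.rTensor R j.toLinearMap) :=
        Module.Flat.rTensor_preserves_injective_linearMap _ d.inj
      apply hinj
      show LinearMap.rTensor R j.toLinearMap ((counitA j).lTensor A (d.comulA a)) =
        LinearMap.rTensor R j.toLinearMap (a ⊗ₜ[R] (1 : R))
      have h1 : ∀ t : A ⊗[R] A, LinearMap.rTensor R j.toLinearMap ((counitA j).lTensor A t) =
          (Coalgebra.counit (R := R) (A := H)).lTensor H
            (TensorProduct.map j.toLinearMap j.toLinearMap t) := by
        intro t
        induction t using TensorProduct.induction_on with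
        | zero => simp
        | tmul x y => rfl
        | add x y hx hy => simp only [map_add, hx, hy]
      rw [h1, d.map_comulA]
      exact LinearMap.congr_fun (Coalgebra.lTensor_counit_comp_comul (R := R) (A := H)) (j a) }

lemma map_one' : TensorProduct.map j.toLinearMap j.toLinearMap (1 : A ⊗[R] A) = 1 := by
  rw [Algebra.TensorProduct.one_def, TensorProduct.map_tmul]
  simp [Algebra.TensorProduct.one_def]

lemma map_mul' (s t : A ⊗[R] A) :
    TensorProduct.map j.toLinearMap j.toLinearMap (s * t) =
      TensorProduct.map j.toLinearMap j.toLinearMap s *
        TensorProduct.map j.toLinearMap j.toLinearMap t :=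
  map_mul (Algebra.TensorProduct.map j j) s t

/-- The bialgebra structure on `A`. -/
@[reducible] noncomputable def bialgebra : Bialgebra R A :=
  letI := d.coalgebra
  Bialgebra.mk' R A
    (by
      show Coalgebra.counit (R := R) (j 1) = 1
      rw [map_one, Bialgebra.counit_one])
    (by
      intro a b
      show Coalgebra.counit (R := R) (j (a * b)) =
        Coalgebra.counit (R := R) (j a) * Coalgebra.counit (R := R) (j b)
      rw [map_mul, Bialgebra.counit_mul])
    (by
      apply d.inj2
      show TensorProduct.map j.toLinearMap j.toLinearMap (d.comulA 1) = _
      rw [d.map_comulA, map_one, Bialgebra.comul_one, map_one'])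
    (by
      intro a b
      apply d.inj2
      show TensorProduct.map j.toLinearMap j.toLinearMap (d.comulA (a * b)) =
        TensorProduct.map j.toLinearMap j.toLinearMap (d.comulA a * d.comulA b)
      rw [d.map_comulA, map_mul, Bialgebra.comul_mul, map_mul', d.map_comulA, d.map_comulA])

/-- The Hopf algebra structure on `A`. -/
@[reducible] noncomputable def hopfAlgebra : HopfAlgebra R A :=
  { d.bialgebra with
    antipode := d.antipodeA
    mul_antipode_rTensor_comul := by
      apply LinearMap.ext
      intro a
      apply d.inj
      show j (LinearMap.mul' R A ((d.antipodeA).rTensor A (d.comulA a))) =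
        j (algebraMap R A (Coalgebra.counit (R := R) (j a)))
      have h1 : ∀ t : A ⊗[R] A, j (LinearMap.mul' R A ((d.antipodeA).rTensor A t)) =
          LinearMap.mul' R H ((HopfAlgebra.antipode R).rTensor H
            (TensorProduct.map j.toLinearMap j.toLinearMap t)) := by
        intro t
        induction t using TensorProduct.induction_on with
        | zero => simp
        | tmul x y =>
          simp only [LinearMap.rTensor_tmul, LinearMap.mul'_apply, TensorProduct.map_tmul,
            map_mul, d.j_antipodeA]
          rfl
        | add x y hx hy => simp only [map_add, hx, hy]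
      rw [h1, d.map_comulA, HopfAlgebra.mul_antipode_rTensor_comul_apply, j.commutes]
    mul_antipode_lTensor_comul := by
      apply LinearMap.ext
      intro a
      apply d.inj
      show j (LinearMap.mul' R A ((d.antipodeA).lTensor A (d.comulA a))) =
        j (algebraMap R A (Coalgebra.counit (R := R) (j a)))
      have h1 : ∀ t : A ⊗[R] A, j (LinearMap.mul' R A ((d.antipodeA).lTensor A t)) =
          LinearMap.mul' R H ((HopfAlgebra.antipode R).lTensor H
            (TensorProduct.map j.toLinearMap j.toLinearMap t)) := by
        intro t
        induction t using TensorProduct.induction_on with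
        | zero => simp
        | tmul x y =>
          simp only [LinearMap.lTensor_tmul, LinearMap.mul'_apply, TensorProduct.map_tmul,
            map_mul, d.j_antipodeA]
          rfl
        | add x y hx hy => simp only [map_add, hx, hy]
      rw [h1, d.map_comulA, HopfAlgebra.mul_antipode_lTensor_comul_apply, j.commutes] }

/-- Cocommutativity passes to `A`. -/
lemma isCocomm [Coalgebra.IsCocomm R H] :
    letI := d.hopfAlgebra
    Coalgebra.IsCocomm R A := by
  letI := d.hopfAlgebra
  refine ⟨?_⟩
  apply LinearMap.ext
  intro a
  apply d.inj2
  show TensorProduct.map j.toLinearMap j.toLinearMap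
      (TensorProduct.comm R A A (d.comulA a)) =
    TensorProduct.map j.toLinearMap j.toLinearMap (d.comulA a)
  have h1 : ∀ t : A ⊗[R] A, TensorProduct.map j.toLinearMap j.toLinearMap
      (TensorProduct.comm R A A t) =
      TensorProduct.comm R H H (TensorProduct.map j.toLinearMap j.toLinearMap t) := by
    intro t
    induction t using TensorProduct.induction_on with
    | zero => simp
    | tmul x y => simp
    | add x y hx hy => simp only [map_add, hx, hy]
  rw [h1, d.map_comulA]
  exact LinearMap.congr_fun (Coalgebra.comm_comp_comul R H) (j a)

end SubHopfData

end SubHopf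

end Fermat.Agent.R.H54
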