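import Fermat.Agent.R.Flat.H54_Sub

/-!
# Flat closure (cluster R, helper54): flatness passes to Galois-stable subgroups

Abstract form (`AbsFlat`, `AbsFlatSep`) over `(R, K, G)` with `R` a principal ideal domain.
-/

set_option autoImplicit false
set_option linter.unusedSectionVars false
set_option linter.style.haveILetI false

open scoped TensorProduct
open WithConv

namespace Fermat.Agent.R.H54

section Main

variable (R K G : Type) [CommRing R] [Field K] [Algebra R K] [Group G] [MulSemiringAction G K]

/-- `M` with the action `act` of `G` is the group of `K`-points of a finite flat commutative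
cocommutative Hopf algebra over `R`. -/
def AbsFlat (M : Type) [AddCommGroup M] (act : G → M → M) : Prop :=
  ∃ (H : Type) (_ : CommRing H) (_ : HopfAlgebra R H),
    Module.Finite R H ∧ Module.Flat R H ∧ Coalgebra.IsCocomm R H ∧
    ∃ e : Pts R H K ≃ M, (∀ f g : Pts R H K, e (f * g) = e f + e g) ∧
      ∀ (σ : G) (f g : Pts R H K), (∀ h : H, g h = σ • f h) → e g = act σ (e f)

/-- The same with a Hopf algebra whose points separate its elements. -/
def AbsFlatSep (M : Type) [AddCommGroup M] (act : G → M → M) : Prop :=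
  ∃ (H : Type) (_ : CommRing H) (_ : HopfAlgebra R H),
    Module.Finite R H ∧ Module.Flat R H ∧ Coalgebra.IsCocomm R H ∧
    (∀ h : H, (∀ f : Pts R H K, f h = 0) → h = 0) ∧
    ∃ e : Pts R H K ≃ M, (∀ f g : Pts R H K, e (f * g) = e f + e g) ∧
      ∀ (σ : G) (f g : Pts R H K), (∀ h : H, g h = σ • f h) → e g = act σ (e f)

variable {R K G}

lemma AbsFlatSep.absFlat {M : Type} [AddCommGroup M] {act : G → M → M}
    (h : AbsFlatSep R K G M act) : AbsFlat R K G M act := by
  obtain ⟨H, i1, i2, h1, h2, h3, _, h4⟩ := h
  exact ⟨H, i1, i2, h1, h2, h3, h4⟩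

end Main

section Quot

variable {R K : Type} [CommRing R] [Field K] [Algebra R K]
variable {H : Type} [CommRing H] [HopfAlgebra R H]

/-- Cocommutativity passes to the quotient by a Hopf ideal. -/
lemma isCocomm_quotient [Coalgebra.IsCocomm R H] (J : Ideal H) [J.IsHopfIdeal R] :
    Coalgebra.IsCocomm R (H ⧸ J) := by
  refine ⟨?_⟩
  apply LinearMap.ext
  intro a
  obtain ⟨x, rfl⟩ := Ideal.Quotient.mk_surjective a
  simp only [LinearMap.coe_comp, LinearEquiv.coe_coe, Function.comp_apply,
    Bialgebra.Quotient.comul_mk]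
  have key : ∀ t : H ⊗[R] H, (TensorProduct.comm R (H ⧸ J) (H ⧸ J))
      (TensorProduct.map (Ideal.Quotient.mkₐ R J).toLinearMap
        (Ideal.Quotient.mkₐ R J).toLinearMap t) =
      TensorProduct.map (Ideal.Quotient.mkₐ R J).toLinearMap
        (Ideal.Quotient.mkₐ R J).toLinearMap (TensorProduct.comm R H H t) := by
    intro t
    induction t using TensorProduct.induction_on with
    | zero => simp
    | tmul a b => simp
    | add x y hx hy => simp only [map_add, hx, hy]
  rw [key]
  congr 1
  exact LinearMap.congr_fun (Coalgebra.comm_comp_comul R H) x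

end Quot

section SubMain

variable {R K G : Type} [CommRing R] [IsDomain R] [IsPrincipalIdealRing R] [Field K] [Algebra R K]
  [Group G] [MulSemiringAction G K]

/-- The unit point is sent to `0` by a multiplicative-to-additive bijection. -/
lemma map_one_eq_zero {H : Type} [CommRing H] [HopfAlgebra R H] {M : Type} [AddCommGroup M]
    (e : Pts R H K ≃ M) (he : ∀ f g : Pts R H K, e (f * g) = e f + e g) : e 1 = 0 := by
  have := he 1 1
  rw [mul_one] at this
  exact left_eq_add.mp this

/-- The quotient by the vanishing ideal of a `G`-stable subgroup `X'`: a finite flat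
cocommutative Hopf algebra whose points are exactly `X'`, compatibly with products and
conjugation. -/
theorem exists_quotient_model (hD : DescentData R K G)
    {H : Type} [CommRing H] [HopfAlgebra R H] [Module.Finite R H] [Coalgebra.IsCocomm R H]
    {X' : Set (Pts R H K)} (hX : IsGSubgroup hD X') :
    ∃ (H' : Type) (_ : CommRing H') (_ : HopfAlgebra R H'),
      Module.Finite R H' ∧ Module.Flat R H' ∧ Coalgebra.IsCocomm R H' ∧
      (∀ h : H', (∀ f : Pts R H' K, f h = 0) → h = 0) ∧
      ∃ r : Pts R H' K ≃ X', (∀ f g : Pts R H' K, ((r (f * g) : X') : Pts R H K) = r f * r g) ∧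
        ∀ (σ : G) (f g : Pts R H' K), (∀ h : H', g h = σ • f h) →
          ((r g : X') : Pts R H K) = gconj hD σ (r f) := by
  classical
  haveI := vanIdeal_isHopfIdeal hD hX
  obtain ⟨hcl, -⟩ := closurePts_eq hD hX
  set J := vanIdeal X' with hJ
  haveI hfree0 := quot_free hD X'
  haveI hfree : Module.Free R (H ⧸ J) :=
    Module.Free.of_equiv (Submodule.Quotient.restrictScalarsEquiv R J)
  -- restriction of points
  let restr : Pts R (H ⧸ J) K → Pts R H K :=
    fun g => toConv (g.ofConv.comp (Ideal.Quotient.mkₐ R J))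
  have hrestr_mem : ∀ g, restr g ∈ X' := by
    intro g
    rw [← hcl]
    intro x hx
    show g (Ideal.Quotient.mk J x) = 0
    rw [Ideal.Quotient.eq_zero_iff_mem.mpr hx, map_zero]
  have hrestr_inj : Function.Injective restr := by
    intro g₁ g₂ h
    apply WithConv.ext
    apply AlgHom.ext
    intro a
    obtain ⟨x, rfl⟩ := Ideal.Quotient.mk_surjective a
    have := congrArg (fun f : Pts R H K => f x) h
    exact this
  have hrestr_surj : ∀ f ∈ X', ∃ g, restr g = f := by
    intro f hf
    refine ⟨toConv (Ideal.Quotient.liftₐ J f.ofConv (fun x hx => mem_vanIdeal.mp hx f hf)), ?_⟩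
    apply WithConv.ext
    apply AlgHom.ext
    intro x
    rfl
  let r : Pts R (H ⧸ J) K ≃ X' :=
    Equiv.ofBijective (fun g => ⟨restr g, hrestr_mem g⟩)
      ⟨fun g₁ g₂ h => hrestr_inj (congrArg Subtype.val h),
       fun f => by
        obtain ⟨g, hg⟩ := hrestr_surj f.1 f.2
        exact ⟨g, Subtype.ext hg⟩⟩
  refine ⟨H ⧸ J, inferInstance, inferInstance, ?_, ?_, ?_, ?_, r, ?_, ?_⟩
  · exact Module.Finite.of_surjective (Ideal.Quotient.mkₐ R J).toLinearMap
      (Ideal.Quotient.mkₐ_surjective R J)
  · exact Module.Flat.of_free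
  · exact isCocomm_quotient J
  · intro a ha
    obtain ⟨x, rfl⟩ := Ideal.Quotient.mk_surjective a
    rw [Ideal.Quotient.eq_zero_iff_mem, hJ, mem_vanIdeal]
    intro f hf
    obtain ⟨g, rfl⟩ := hrestr_surj f hf
    exact ha g
  · intro f g
    show restr (f * g) = restr f * restr g
    apply WithConv.ext
    have := AlgHom.convMul_comp_bialgHom_distrib f g (Bialgebra.Quotient.mkBialgHom (R := R) J)
    exact this
  · intro σ f g hfg
    show restr g = gconj hD σ (restr f)
    apply WithConv.ext
    apply AlgHom.ext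
    intro x
    exact hfg _

/-- **Flatness passes to `G`-stable subgroups** (abstract form, with a separated model). -/
theorem absFlat_sub (hD : DescentData R K G) {M M' : Type} [AddCommGroup M] [AddCommGroup M']
    (act : G → M → M) (act' : G → M' → M') (ι : M' →+ M) (hι : Function.Injective ι)
    (heq : ∀ σ x, ι (act' σ x) = act σ (ι x)) (h : AbsFlat R K G M act) :
    AbsFlatSep R K G M' act' := by
  classical
  obtain ⟨H, _, _, hfin, -, hcoc, e, he_mul, he_gal⟩ := h
  have he1 : e 1 = 0 := map_one_eq_zero e he_mul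
  set X' : Set (Pts R H K) := {f | e f ∈ Set.range ι} with hX'
  have hX : IsGSubgroup hD X' := by
    refine ⟨?_, ?_, ?_, ?_⟩
    · exact ⟨0, by rw [map_zero, he1]⟩
    · rintro f ⟨m, hm⟩ g ⟨m', hm'⟩
      exact ⟨m + m', by rw [map_add, hm, hm', he_mul]⟩
    · rintro f ⟨m, hm⟩
      refine ⟨-m, ?_⟩
      have h1 := he_mul (pinv f) f
      rw [pinv_mul, he1] at h1
      rw [map_neg, hm]
      exact (eq_neg_of_add_eq_zero_left h1.symm).symm
    · rintro σ f ⟨m, hm⟩
      refine ⟨act' σ m, ?_⟩
      rw [heq, hm]
      exact (he_gal σ f (gconj hD σ f) (fun _ => rfl)).symm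
  obtain ⟨H', i1, i2, h1, h2, h3, h4, r, hr_mul, hr_gal⟩ := exists_quotient_model hD hX
  have hspec : ∀ f : Pts R H' K, ∃ m', ι m' = e (r f).1 := fun f => (r f).2
  choose e' he' using hspec
  have he'_inj : Function.Injective e' := by
    intro f g hfg
    have : e (r f).1 = e (r g).1 := by rw [← he', ← he', hfg]
    exact r.injective (Subtype.ext (e.injective this))
  have he'_surj : Function.Surjective e' := by
    intro m'
    have hx : e.symm (ι m') ∈ X' := ⟨m', by simp⟩
    refine ⟨r.symm ⟨_, hx⟩, ?_⟩
    apply hι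
    rw [he']
    simp
  refine ⟨H', i1, i2, h1, h2, h3, h4, Equiv.ofBijective e' ⟨he'_inj, he'_surj⟩, ?_, ?_⟩
  · intro f g
    apply hι
    show ι (e' (f * g)) = ι (e' f + e' g)
    rw [map_add, he', he', he', hr_mul, he_mul]
  · intro σ f g hfg
    apply hι
    show ι (e' g) = ι (act' σ (e' f))
    rw [he', heq, he', hr_gal σ f g hfg]
    exact he_gal σ _ _ (fun _ => rfl)

/-- Every flat model can be replaced by a separated one. -/
theorem AbsFlat.sep (hD : DescentData R K G) {M : Type} [AddCommGroup M] {act : G → M → M}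
    (h : AbsFlat R K G M act) : AbsFlatSep R K G M act :=
  absFlat_sub hD act act (AddMonoidHom.id M) Function.injective_id (fun _ _ => rfl) h

end SubMain

end Fermat.Agent.R.H54
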