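import Fermat.Agent.R.Flat.H54_Inv
import Fermat.Agent.R.Flat.H54_SubHopf
import Fermat.Agent.R.Flat.H54_SubMain

/-!
# Flat closure (cluster R, helper54): quotients

For a `G`-stable subgroup `N` of the points of a separated finite flat cocommutative Hopf algebra
`H` over a principal ideal domain `R`, the subalgebra `invSub N` of functions invariant under
translation by `N` is a sub-Hopf algebra.
-/

set_option autoImplicit false
set_option linter.unusedSectionVars false
set_option linter.style.haveILetI false

open scoped TensorProduct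
open WithConv

namespace Fermat.Agent.R.H54

section Quot

variable {R K G : Type} [CommRing R] [IsDomain R] [IsPrincipalIdealRing R] [Field K] [Algebra R K]
  [Group G] [MulSemiringAction G K]
variable {H : Type} [CommRing H] [HopfAlgebra R H] [Module.Finite R H] [Module.Flat R H]
  [Coalgebra.IsCocomm R H]

/-- A point as a linear map. -/
def ptLin (f : Pts R H K) : H →ₗ[R] K := f.ofConv.toLinearMap

@[simp] lemma ptLin_apply (f : Pts R H K) (h : H) : ptLin f h = f h := rfl

lemma convMul_apply'' (f g : Pts R H K) (h : H) :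
    (f * g) h = LinearMap.mul' R K (TensorProduct.map (ptLin f) (ptLin g) (Coalgebra.comul h)) :=
  convMul_apply' f g h

/-- The subalgebra of functions invariant under translation by `N`. -/
def invSub (N : Set (Pts R H K)) : Subalgebra R H where
  carrier := {h | ∀ f : Pts R H K, ∀ k ∈ N, (f * k) h = f h}
  mul_mem' := fun {a b} ha hb f k hk => by
    have h1 : (f * k) (a * b) = (f * k) a * (f * k) b := map_mul (f * k).ofConv a b
    have h2 : f (a * b) = f a * f b := map_mul f.ofConv a b
    rw [h1, h2, ha f k hk, hb f k hk]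
  add_mem' := fun {a b} ha hb f k hk => by
    have h1 : (f * k) (a + b) = (f * k) a + (f * k) b := map_add (f * k).ofConv a b
    have h2 : f (a + b) = f a + f b := map_add f.ofConv a b
    rw [h1, h2, ha f k hk, hb f k hk]
  algebraMap_mem' := fun r f k _ => by
    have h1 : (f * k) (algebraMap R H r) = algebraMap R K r := (f * k).ofConv.commutes r
    have h2 : f (algebraMap R H r) = algebraMap R K r := f.ofConv.commutes r
    rw [h1, h2]

lemma mem_invSub {N : Set (Pts R H K)} {h : H} :
    h ∈ invSub N ↔ ∀ f : Pts R H K, ∀ k ∈ N, (f * k) h = f h := Iff.rfl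

/-- The pairs of linear maps cutting out `invSub N`. -/
def pairsN (N : Set (Pts R H K)) : Set ((H →ₗ[R] K) × (H →ₗ[R] K)) :=
  {uv | ∃ (f : Pts R H K) (k : Pts R H K), k ∈ N ∧ uv = (ptLin (f * k), ptLin f)}

lemma mem_invSub_of_pairs {N : Set (Pts R H K)} {h : H}
    (hh : ∀ uv ∈ pairsN N, uv.1 h = uv.2 h) : h ∈ invSub N :=
  fun f k hk => hh _ ⟨f, k, hk, rfl⟩

/-- The family of all points of `H`, as linear maps. -/
def famH (R H K : Type) [CommRing R] [Field K] [Algebra R K] [CommRing H] [HopfAlgebra R H] :
    Set (H →ₗ[R] K) := Set.range ptLin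

lemma famH_gstable (hD : DescentData R K G) : GStable G (famH R H K) := by
  rintro σ _ ⟨f, rfl⟩
  exact ⟨ptLin (gconj hD σ f), ⟨_, rfl⟩, fun _ => rfl⟩

/-- The family of the restrictions to `invSub N` of all points of `H`. -/
def famA (N : Set (Pts R H K)) : Set ((invSub N) →ₗ[R] K) :=
  Set.range fun f : Pts R H K => ptLin f ∘ₗ (invSub N).val.toLinearMap

lemma famA_gstable (hD : DescentData R K G) (N : Set (Pts R H K)) : GStable G (famA N) := by
  rintro σ _ ⟨f, rfl⟩
  exact ⟨ptLin (gconj hD σ f) ∘ₗ (invSub N).val.toLinearMap, ⟨_, rfl⟩, fun _ => rfl⟩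

lemma famA_separating (hsep : ∀ h : H, (∀ f : Pts R H K, f h = 0) → h = 0)
    (N : Set (Pts R H K)) : Separating (famA N) := by
  intro a ha
  apply Subtype.ext
  apply hsep
  intro f
  exact ha _ ⟨f, rfl⟩

lemma famH_separating (hsep : ∀ h : H, (∀ f : Pts R H K, f h = 0) → h = 0) :
    Separating (famH R H K) := by
  intro h hh
  apply hsep
  intro f
  exact hh _ ⟨f, rfl⟩

lemma free_H : Module.Free R H := by
  haveI : Module.IsTorsionFree R H := Module.Flat.isTorsionFree
  exact Module.free_of_finite_type_torsion_free'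

lemma finite_inv (N : Set (Pts R H K)) : Module.Finite R (invSub N) :=
  inferInstanceAs (Module.Finite R (Subalgebra.toSubmodule (invSub N)))

lemma free_inv (N : Set (Pts R H K)) : Module.Free R (invSub N) := by
  haveI := free_H (R := R) (H := H)
  exact inferInstanceAs (Module.Free R (Subalgebra.toSubmodule (invSub N)))

/-- The comultiplication maps invariants to `invariants ⊗ invariants`. -/
theorem comul_mem_inv (hD : DescentData R K G)
    (hsep : ∀ h : H, (∀ f : Pts R H K, f h = 0) → h = 0)
    (N : Set (Pts R H K)) (a : invSub N) :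
    Coalgebra.comul (R := R) ((invSub N).val a) ∈
      LinearMap.range (TensorProduct.map (invSub N).val.toLinearMap
        (invSub N).val.toLinearMap) := by
  classical
  haveI := free_H (R := R) (H := H)
  haveI := finite_inv (R := R) (K := K) (H := H) N
  haveI := free_inv (R := R) (K := K) (H := H) N
  set bH := Module.Free.chooseBasis R H
  set bA := Module.Free.chooseBasis R (invSub N)
  set t := Coalgebra.comul (R := R) ((invSub N).val a) with ht
  -- step 1: invariance in the first variable
  obtain ⟨q, hq, hqt⟩ := inv_tensor_left' hD bH (famH R H K) (famH_gstable hD)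
    (famH_separating hsep) (pairsN N) t (by
      rintro _ ⟨f, k, hk, rfl⟩ _ ⟨g, rfl⟩
      show LinearMap.mul' R K (TensorProduct.map (ptLin (f * k)) (ptLin g) t) =
        LinearMap.mul' R K (TensorProduct.map (ptLin f) (ptLin g) t)
      rw [ht, ← convMul_apply'', ← convMul_apply'', mul_right_comm]
      exact a.2 (f * g) k hk)
  have hqA : ∀ i, q i ∈ invSub N := fun i => mem_invSub_of_pairs (hq i)
  set t₁ : (invSub N) ⊗[R] H := ∑ i, (⟨q i, hqA i⟩ : invSub N) ⊗ₜ[R] bH i with ht₁
  have ht₁t : LinearMap.rTensor H (invSub N).val.toLinearMap t₁ = t := by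
    rw [ht₁, hqt, map_sum]
    rfl
  -- step 2: invariance in the second variable
  obtain ⟨q', hq', hq't⟩ := inv_tensor_right' hD bA (famA N) (famA_gstable hD N)
    (famA_separating hsep N) (pairsN N) t₁ (by
      rintro _ ⟨g, k, hk, rfl⟩ _ ⟨f, rfl⟩
      show LinearMap.mul' R K (TensorProduct.map (ptLin f ∘ₗ (invSub N).val.toLinearMap)
          (ptLin (g * k)) t₁) =
        LinearMap.mul' R K (TensorProduct.map (ptLin f ∘ₗ (invSub N).val.toLinearMap)
          (ptLin g) t₁)
      have key : ∀ (u : H →ₗ[R] K), TensorProduct.map (ptLin f ∘ₗ (invSub N).val.toLinearMap) u t₁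
          = TensorProduct.map (ptLin f) u t := by
        intro u
        rw [← ht₁t, ← LinearMap.comp_apply, LinearMap.rTensor, ← TensorProduct.map_comp,
          LinearMap.comp_id]
      rw [key, key, ht, ← convMul_apply'', ← convMul_apply'', ← mul_assoc]
      exact a.2 (f * g) k hk)
  have hq'A : ∀ i, q' i ∈ invSub N := fun i => mem_invSub_of_pairs (hq' i)
  refine ⟨∑ i, bA i ⊗ₜ[R] (⟨q' i, hq'A i⟩ : invSub N), ?_⟩
  rw [← ht₁t, hq't, map_sum, map_sum]
  rfl

lemma mul_pinv (f : Pts R H K) : f * pinv f = 1 := by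
  rw [mul_comm, pinv_mul]

lemma pinv_mul_distrib (f k : Pts R H K) : pinv (f * k) = pinv f * pinv k := by
  apply left_inv_eq_right_inv (pinv_mul (f * k))
  rw [mul_mul_mul_comm, mul_pinv, mul_pinv, mul_one]

/-- The antipode preserves the invariants. -/
theorem antipode_mem_inv (hD : DescentData R K G) {N : Set (Pts R H K)}
    (hN : IsGSubgroup hD N) (a : invSub N) :
    HopfAlgebra.antipode R ((invSub N).val a) ∈ invSub N := by
  intro f k hk
  show pinv (f * k) (a : H) = pinv f (a : H)
  rw [pinv_mul_distrib]
  exact a.2 (pinv f) (pinv k) (hN.inv_mem k hk)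

/-- The invariants form a sub-Hopf algebra. -/
theorem subHopfData_inv (hD : DescentData R K G)
    (hsep : ∀ h : H, (∀ f : Pts R H K, f h = 0) → h = 0)
    {N : Set (Pts R H K)} (hN : IsGSubgroup hD N) : SubHopfData (invSub N).val := by
  haveI := finite_inv (R := R) (K := K) (H := H) N
  haveI := free_inv (R := R) (K := K) (H := H) N
  have hinj : Function.Injective (invSub N).val.toLinearMap := Subtype.val_injective
  refine ⟨Subtype.val_injective, ?_, ?_, comul_mem_inv hD hsep N, ?_⟩
  · exact TensorProduct.map_injective_of_flat_flat _ _ hinj hinj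
  · exact TensorProduct.map_injective_of_flat_flat _ _ hinj
      (TensorProduct.map_injective_of_flat_flat _ _ hinj hinj)
  · intro a
    exact ⟨⟨_, antipode_mem_inv hD hN a⟩, rfl⟩

/-- Two finite sets of indices of a linearly independent family with the same sum are equal. -/
lemma finset_eq_of_sum_eq {ι V : Type} [AddCommGroup V] [Module K V] {v : ι → V}
    (hv : LinearIndependent K v) (s t : Finset ι) (h : ∑ i ∈ s, v i = ∑ i ∈ t, v i) : s = t := by
  classical
  have hinj := linearIndependent_iff_injective_finsuppLinearCombination.mp hv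
  have h1 : ∀ u : Finset ι, Finsupp.linearCombination K v (∑ i ∈ u, Finsupp.single i (1 : K)) =
      ∑ i ∈ u, v i := by
    intro u
    rw [map_sum]
    refine Finset.sum_congr rfl fun i _ => ?_
    rw [Finsupp.linearCombination_single, one_smul]
  have h2 : (∑ i ∈ s, Finsupp.single i (1 : K)) = ∑ i ∈ t, Finsupp.single i (1 : K) :=
    hinj (by rw [h1, h1, h])
  have h3 : ∀ (u : Finset ι) (j : ι), (∑ i ∈ u, Finsupp.single i (1 : K)) j =
      if j ∈ u then 1 else 0 := by
    intro u j
    rw [Finsupp.finsetSum_apply]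
    simp only [Finsupp.single_apply]
    rw [Finset.sum_ite_eq' u j]
  ext j
  have := congrArg (fun a : ι →₀ K => a j) h2
  simp only [h3] at this
  by_cases hs : j ∈ s <;> by_cases ht : j ∈ t <;> simp_all

/-- The sum of the points of a finite set, as a linear map. -/
noncomputable def sumLin (S : Finset (Pts R H K)) : H →ₗ[R] K := ∑ k ∈ S, ptLin k

lemma sumLin_apply (S : Finset (Pts R H K)) (h : H) : sumLin S h = ∑ k ∈ S, k h := by
  simp [sumLin, LinearMap.sum_apply]

lemma gconj_inv_gconj (hD : DescentData R K G) (σ : G) (k : Pts R H K) :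
    gconj hD σ⁻¹ (gconj hD σ k) = k := by
  apply WithConv.ext
  apply AlgHom.ext
  intro h
  show σ⁻¹ • σ • k h = k h
  rw [inv_smul_smul]

lemma gconj_gconj_inv (hD : DescentData R K G) (σ : G) (k : Pts R H K) :
    gconj hD σ (gconj hD σ⁻¹ k) = k := by
  apply WithConv.ext
  apply AlgHom.ext
  intro h
  show σ • σ⁻¹ • k h = k h
  rw [smul_inv_smul]

lemma smul_sumLin (hD : DescentData R K G) (S : Finset (Pts R H K))
    (hS : ∀ (σ : G), ∀ k ∈ S, gconj hD σ k ∈ S) (σ : G) (h : H) :
    σ • sumLin S h = sumLin S h := by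
  rw [sumLin_apply, Finset.smul_sum]
  refine Finset.sum_bij' (fun k _ => gconj hD σ k) (fun k _ => gconj hD σ⁻¹ k)
    (fun k hk => hS σ k hk) (fun k hk => hS σ⁻¹ k hk)
    (fun k _ => gconj_inv_gconj hD σ k) (fun k _ => gconj_gconj_inv hD σ k) (fun k _ => rfl)

/-- The trace over `N`, up to a non-zero constant `D`. -/
theorem exists_trace (hD : DescentData R K G) {N : Set (Pts R H K)} (hN : IsGSubgroup hD N)
    (hNfin : N.Finite) :
    ∃ (D : K) (Tr : H →ₗ[R] H), D ≠ 0 ∧
      ∀ (f : Pts R H K) (h : H), f (Tr h) = D * ∑ k ∈ hNfin.toFinset, (f * k) h := by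
  classical
  haveI := free_H (R := R) (H := H)
  set bH := Module.Free.chooseBasis R H
  set S := hNfin.toFinset with hS
  have hSstab : ∀ (σ : G), ∀ k ∈ S, gconj hD σ k ∈ S := by
    intro σ k hk
    rw [hS, Set.Finite.mem_toFinset] at hk ⊢
    exact hN.stable σ k hk
  obtain ⟨D₀, r, hD₀, hr⟩ := exists_common_denominator hD (fun i => sumLin S (bH i))
    (fun i σ => smul_sumLin hD S hSstab σ (bH i))
  set θ : H →ₗ[R] R := bH.constr R r with hθdef
  have hθ : ∀ h, algebraMap R K (θ h) = algebraMap R K D₀ * sumLin S h := by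
    have : (Algebra.linearMap R K) ∘ₗ θ = (algebraMap R K D₀) • sumLin S := by
      apply bH.ext
      intro i
      simp only [LinearMap.coe_comp, Function.comp_apply, Algebra.linearMap_apply,
        LinearMap.smul_apply, smul_eq_mul]
      rw [hθdef, Module.Basis.constr_basis, hr]
    intro h
    exact LinearMap.congr_fun this h
  refine ⟨algebraMap R K D₀,
    (TensorProduct.rid R H).toLinearMap ∘ₗ (LinearMap.lTensor H θ) ∘ₗ Coalgebra.comul, hD₀, ?_⟩
  intro f h
  have key : ∀ t : H ⊗[R] H, f (TensorProduct.rid R H (LinearMap.lTensor H θ t)) =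
      algebraMap R K D₀ * ∑ k ∈ S, LinearMap.mul' R K (TensorProduct.map (ptLin f) (ptLin k) t) := by
    intro t
    induction t using TensorProduct.induction_on with
    | zero => simp
    | tmul x y =>
      simp only [LinearMap.lTensor_tmul, TensorProduct.rid_tmul, TensorProduct.map_tmul,
        LinearMap.mul'_apply, ptLin_apply]
      have h1 : f (θ y • x) = algebraMap R K (θ y) * f x := by
        show f.ofConv (θ y • x) = algebraMap R K (θ y) * f.ofConv x
        rw [Algebra.smul_def, map_mul, AlgHom.commutes]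
      rw [h1, hθ, sumLin_apply, ← Finset.mul_sum]
      ring
    | add x y hx hy =>
      simp only [map_add, hx, hy, Finset.sum_add_distrib, mul_add]
  show f (TensorProduct.rid R H (LinearMap.lTensor H θ (Coalgebra.comul h))) = _
  rw [key]
  simp only [convMul_apply'']

end Quot

end Fermat.Agent.R.H54
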