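import Fermat.Agent.R.Flat.H54_Points

/-!
# Flat closure (cluster R, helper54): closed subgroups (scheme-theoretic closure)

For a `G`-stable subgroup `X'` of the points of a finite Hopf algebra `H` over a principal ideal
domain `R`, the ideal `vanIdeal X'` of functions vanishing on `X'` is a Hopf ideal, the quotient
is finite free, and its points are exactly `X'`.
-/

set_option autoImplicit false
set_option linter.unusedSectionVars false
set_option linter.style.haveILetI false

open scoped TensorProduct
open WithConv

namespace Fermat.Agent.R.H54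

section Sub

variable {R K G : Type} [CommRing R] [IsDomain R] [IsPrincipalIdealRing R] [Field K] [Algebra R K]
  [Group G] [MulSemiringAction G K]
variable {H : Type} [CommRing H] [HopfAlgebra R H] [Module.Finite R H]

/-- The ideal of functions vanishing on `X'`. -/
def vanIdeal (X' : Set (Pts R H K)) : Ideal H :=
  ⨅ f : X', RingHom.ker ((f : Pts R H K).ofConv : H →+* K)

lemma mem_vanIdeal {X' : Set (Pts R H K)} {x : H} :
    x ∈ vanIdeal X' ↔ ∀ f ∈ X', (f : Pts R H K) x = 0 := by
  simp only [vanIdeal, Ideal.mem_iInf, RingHom.mem_ker, Subtype.forall]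
  rfl

/-- The linear map induced by `f ∈ X'` on the quotient module. -/
def barLin (X' : Set (Pts R H K)) (f : Pts R H K) (hf : f ∈ X') :
    (H ⧸ (vanIdeal X').restrictScalars R) →ₗ[R] K :=
  ((vanIdeal X').restrictScalars R).liftQ f.ofConv.toLinearMap (fun x hx => by
    rw [LinearMap.mem_ker]
    exact mem_vanIdeal.mp hx f hf)

@[simp] lemma barLin_mk (X' : Set (Pts R H K)) (f : Pts R H K) (hf : f ∈ X') (x : H) :
    barLin X' f hf (Submodule.Quotient.mk x) = f x := rfl

lemma barLin_comp_mkQ (X' : Set (Pts R H K)) (f : Pts R H K) (hf : f ∈ X') :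
    barLin X' f hf ∘ₗ ((vanIdeal X').restrictScalars R).mkQ = f.ofConv.toLinearMap := rfl

/-- The family of the `barLin f`, `f ∈ X'`. -/
def barFam (X' : Set (Pts R H K)) : Set ((H ⧸ (vanIdeal X').restrictScalars R) →ₗ[R] K) :=
  {φ | ∃ (f : Pts R H K) (hf : f ∈ X'), φ = barLin X' f hf}

lemma barFam_separating (X' : Set (Pts R H K)) : Separating (barFam X') := by
  intro q hq
  obtain ⟨x, rfl⟩ := Submodule.Quotient.mk_surjective _ q
  rw [Submodule.Quotient.mk_eq_zero]
  show x ∈ vanIdeal X'
  rw [mem_vanIdeal]
  intro f hf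
  exact hq _ ⟨f, hf, rfl⟩

lemma barFam_gstable (hD : DescentData R K G) {X' : Set (Pts R H K)} (hX : IsGSubgroup hD X') :
    GStable G (barFam X') := by
  rintro σ _ ⟨f, hf, rfl⟩
  refine ⟨barLin X' (gconj hD σ f) (hX.stable σ f hf), ⟨_, hX.stable σ f hf, rfl⟩, ?_⟩
  intro q
  obtain ⟨x, rfl⟩ := Submodule.Quotient.mk_surjective _ q
  rfl

lemma quot_torsionFree (hD : DescentData R K G) (X' : Set (Pts R H K)) :
    Module.IsTorsionFree R (H ⧸ (vanIdeal X').restrictScalars R) := by
  refine ⟨fun r hr => ?_⟩
  have hr0 : algebraMap R K r ≠ 0 := by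
    intro h
    have : r = 0 := hD.inj (by rw [h, map_zero])
    exact hr.ne_zero this
  intro q₁ q₂ h
  have h' : r • (q₁ - q₂) = 0 := by
    simp only [smul_sub]
    exact sub_eq_zero.mpr h
  have : q₁ - q₂ = 0 := by
    apply barFam_separating X'
    rintro _ ⟨f, hf, rfl⟩
    have := congrArg (barLin X' f hf) h'
    rw [map_smul, map_zero, Algebra.smul_def] at this
    rcases mul_eq_zero.mp this with h1 | h1
    · exact absurd h1 hr0
    · exact h1
  exact sub_eq_zero.mp this

lemma quot_free (hD : DescentData R K G) (X' : Set (Pts R H K)) :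
    Module.Free R (H ⧸ (vanIdeal X').restrictScalars R) := by
  haveI := quot_torsionFree hD X'
  exact Module.free_of_finite_type_torsion_free'

/-- The vanishing ideal of a `G`-stable subgroup is a coideal. -/
theorem vanIdeal_isCoideal (hD : DescentData R K G) {X' : Set (Pts R H K)}
    (hX : IsGSubgroup hD X') : ((vanIdeal X').restrictScalars R).IsCoideal := by
  haveI := quot_free hD X'
  refine ⟨fun x hx => ?_, fun x hx => ?_⟩
  · have h1 := mem_vanIdeal.mp hx 1 hX.one_mem
    rw [AlgHom.convOne_apply] at h1
    exact hD.inj (by rw [h1, map_zero])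
  · set b := Module.Free.chooseBasis R (H ⧸ (vanIdeal X').restrictScalars R)
    refine tensor_sep hD b b (barFam X') (barFam X') (barFam_gstable hD hX)
      (barFam_separating X') (barFam_separating X') _ ?_
    rintro _ ⟨f, hf, rfl⟩ _ ⟨g, hg, rfl⟩
    rw [← LinearMap.comp_apply (TensorProduct.map _ _), ← TensorProduct.map_comp,
      barLin_comp_mkQ, barLin_comp_mkQ, ← convMul_apply']
    exact mem_vanIdeal.mp hx _ (hX.mul_mem f hf g hg)

/-- The vanishing ideal of a `G`-stable subgroup is a Hopf ideal. -/
theorem vanIdeal_isHopfIdeal (hD : DescentData R K G) {X' : Set (Pts R H K)}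
    (hX : IsGSubgroup hD X') : (vanIdeal X').IsHopfIdeal R :=
  { vanIdeal_isCoideal hD hX with
    antipode_mem := fun x hx => by
      rw [mem_vanIdeal]
      intro f hf
      exact mem_vanIdeal.mp hx _ (hX.inv_mem f hf) }

/-- The points of `H` which vanish on the vanishing ideal of `X'`. -/
def closurePts (X' : Set (Pts R H K)) : Set (Pts R H K) :=
  {f | ∀ x ∈ vanIdeal X', (f : Pts R H K) x = 0}

lemma subset_closurePts (X' : Set (Pts R H K)) : X' ⊆ closurePts X' :=
  fun f hf x hx => mem_vanIdeal.mp hx f hf

/-- The linear map induced on the quotient module by a point of the closure. -/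
def barLin' (X' : Set (Pts R H K)) (f : Pts R H K) (hf : f ∈ closurePts X') :
    (H ⧸ (vanIdeal X').restrictScalars R) →ₗ[R] K :=
  ((vanIdeal X').restrictScalars R).liftQ f.ofConv.toLinearMap (fun x hx => by
    rw [LinearMap.mem_ker]
    exact hf x hx)

lemma linInd_closure (X' : Set (Pts R H K)) :
    LinearIndependent K (fun f : closurePts X' => barLin' X' f.1 f.2) := by
  apply LinearIndependent.of_comp
    (LinearMap.lcomp K K ((vanIdeal X').restrictScalars R).mkQ)
  have h1 : (⇑(LinearMap.lcomp K K ((vanIdeal X').restrictScalars R).mkQ) ∘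
      fun f : closurePts X' => barLin' X' f.1 f.2) =
      (AlgHom.toLinearMap : (H →ₐ[R] K) → H →ₗ[R] K) ∘
        (fun f : closurePts X' => (f.1 : Pts R H K).ofConv) := by
    funext f
    rfl
  rw [h1]
  refine (linearIndependent_algHom_toLinearMap R H K).comp _ ?_
  intro f g hfg
  exact Subtype.ext (WithConv.ext hfg)

/-- **Closure theorem.** A `G`-stable subgroup `X'` of the points of `H` is closed: every point
which vanishes on the vanishing ideal of `X'` belongs to `X'`. -/
theorem closurePts_eq (hD : DescentData R K G) {X' : Set (Pts R H K)} (hX : IsGSubgroup hD X') :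
    closurePts X' = X' ∧ X'.Finite := by
  classical
  haveI := quot_free hD X'
  set b := Module.Free.chooseBasis R (H ⧸ (vanIdeal X').restrictScalars R) with hb
  set ι₀ := Module.Free.ChooseBasisIndex R (H ⧸ (vanIdeal X').restrictScalars R)
  -- the dual space is finite dimensional of dimension `card ι₀`
  have e := b.constr (M' := K) K
  haveI : Module.Finite K ((H ⧸ (vanIdeal X').restrictScalars R) →ₗ[R] K) :=
    Module.Finite.equiv e
  have hfr : Module.finrank K ((H ⧸ (vanIdeal X').restrictScalars R) →ₗ[R] K) =
      Fintype.card ι₀ := by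
    rw [← LinearEquiv.finrank_eq e, Module.finrank_fintype_fun_eq_card]
  have hli := linInd_closure (R := R) (K := K) X'
  haveI hfin : Finite (closurePts X') := hli.finite
  have hcfin : (closurePts X').Finite := Set.toFinite _
  have hXfin : X'.Finite := hcfin.subset (subset_closurePts X')
  haveI : Fintype (closurePts X') := Fintype.ofFinite _
  have h1 : Fintype.card (closurePts X') ≤ Fintype.card ι₀ := by
    rw [← hfr]
    exact hli.fintype_card_le_finrank
  -- descent: `card ι₀ ≤ card X'`
  haveI : Fintype X' := hXfin.fintype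
  let ev : (ι₀ → K) →ₗ[K] (X' → K) :=
    { toFun := fun c f => ∑ i, c i * barLin X' f.1 f.2 (b i)
      map_add' := fun c c' => by
        funext f
        simp only [Pi.add_apply, add_mul, Finset.sum_add_distrib]
      map_smul' := fun a c => by
        funext f
        simp only [Pi.smul_apply, smul_eq_mul, RingHom.id_apply, Finset.mul_sum, mul_assoc] }
  have hev : Function.Injective ev := by
    rw [← LinearMap.ker_eq_bot, LinearMap.ker_eq_bot']
    intro c hc
    apply descent_inj hD b (barFam X') (barFam_gstable hD hX) (barFam_separating X') c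
    rintro _ ⟨f, hf, rfl⟩
    exact congrFun hc ⟨f, hf⟩
  have h2 : Fintype.card ι₀ ≤ Fintype.card X' := by
    have := LinearMap.finrank_le_finrank_of_injective hev
    rwa [Module.finrank_fintype_fun_eq_card, Module.finrank_fintype_fun_eq_card] at this
  have h3 : (closurePts X').ncard ≤ X'.ncard := by
    rw [← Nat.card_coe_set_eq, ← Nat.card_coe_set_eq, Nat.card_eq_fintype_card,
      Nat.card_eq_fintype_card]
    exact h1.trans h2
  exact ⟨(Set.eq_of_subset_of_ncard_le (subset_closurePts X') h3 hcfin).symm, hXfin⟩

end Sub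

end Fermat.Agent.R.H54
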